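import Fermat.Agent.Mazur.EisJ
import Fermat.Agent.AtN.Main
import Fermat.Agent.S37aux.RI

/-!
# The Eisenstein input for `J₀(N)`: everything except the finite flat model at `q`
-/

set_option autoImplicit false
set_option linter.style.haveILetI false

noncomputable section

open Fermat.Agent.GalRep ModularCurve AlgebraicCurve Fermat.Agent.Mazur
open Fermat.Agent.MazurCyc Fermat.Agent.S37aux Fermat.Agent.MazurEisJ

namespace Fermat.Agent.S15x

theorem eisInput_of_model (N : ℕ) [NeZero N] (hN : N.Prime) {q : ℕ} (hq : q.Prime) (hqN : q ≠ N)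
    (hmodel : ∃ A : ValuationSubring (AlgebraicClosure ℚ), A.LiesOverPrime q ∧
      ModelRed N q hq A) :
    letI := modS N
    haveI := commClass N
    EisInput hq N (PE N q) (TS N) (JZero N) := by
  letI := modS N
  haveI := commClass N
  exact eisInput N hN hq hqN (jZero_divisible N q hq.ne_zero)
    (fun ℓ hℓ _ hℓN A hA => bareRed N ℓ hℓ A hA
      (fun h => hℓN ((Nat.prime_dvd_prime_iff_eq hℓ hN).mp h)))
    hmodel (AtN.atN hN hq hqN (PE N q))

end Fermat.Agent.S15x
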