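import Fermat.Agent.S15.Kill
import Fermat.Agent.Mazur.EisJ

/-!
# S15 from the Eisenstein descent
-/

set_option autoImplicit false
set_option synthInstance.maxHeartbeats 400000

open ModularCurve AlgebraicCurve
open WeierstrassCurve WeierstrassCurve.Affine
open Fermat.Agent.Moduli Fermat.Agent.MazurCusp Fermat.Agent.GalRep

noncomputable section

namespace Fermat.Agent.S15x

/-- the algebraic numbers -/
local notation "𝕂" => AlgebraicClosure ℚ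

section Main

variable {p : ℕ} [hp : Fact p.Prime]

omit hp in
theorem chiE_eq (q : ℕ) (t : HeckeAlgS ({p} : Set ℕ)) :
    MazurEisJ.chiE p q t = ((eisHom p t : ℤ) : ZMod q) := by
  have h : (MazurEisJ.chiE p q : HeckeAlgS ({p} : Set ℕ) →+* ZMod q) =
      (Int.castRingHom (ZMod q)).comp (eisHom p : HeckeAlgS ({p} : Set ℕ) →+* ℤ) := by
    apply MvPolynomial.ringHom_ext
    · intro r
      simp
    · intro r
      simp [MazurEisJ.chiE, eisHom]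
  exact congrArg (fun f => f t) h

/-- **The kill statement from the Eisenstein descent.** -/
theorem heckeKill_of_eis {q : ℕ} (h : letI := MazurEisJ.modS p
    ∃ s ∉ MazurEisJ.PE p q, ∀ x : JZero p, (∀ σ : 𝕂 ≃ₐ[ℚ] 𝕂, σ • x = x) →
      ∃ n : ℕ, n ≠ 0 ∧ n • s • x = 0) : HeckeKill p q := by
  obtain ⟨s, hs, h⟩ := h
  refine heckeKill_of s (fun hd => hs ?_) h
  rw [MazurEisJ.mem_PE, chiE_eq, ZMod.intCast_zmod_eq_zero_iff_dvd]
  exact hd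

end Main

/-- **S15 from the Eisenstein descent.** -/
theorem s15_of
    (H : ∀ (p : ℕ) [Fact p.Prime] (q : ℕ), q.Prime → q ≠ p → letI := MazurEisJ.modS p
      ∃ s ∉ MazurEisJ.PE p q, ∀ x : JZero p, (∀ σ : 𝕂 ≃ₐ[ℚ] 𝕂, σ • x = x) →
        ∃ n : ℕ, n ≠ 0 ∧ n • s • x = 0)
    {p : ℕ} (hp : p.Prime) (hp' : p ∉ ({2, 3, 5, 7, 13} : Finset ℕ))
    (W : WeierstrassCurve ℤ) (hΔ : W.Δ ≠ 0)
    (Q : ((W.map (Int.castRingHom ℚ))⁄(AlgebraicClosure ℚ)).Point)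
    (hQfix : ∀ σ : AlgebraicClosure ℚ ≃ₐ[ℚ] AlgebraicClosure ℚ, σ • Q = Q)
    (hQord : addOrderOf Q = p)
    (h2Δ : (2 : ℤ) ∣ W.Δ) (h2c₄ : ¬ (2 : ℤ) ∣ W.c₄)
    (h2 : ∀ A : ValuationSubring (AlgebraicClosure ℚ), A.LiesOverPrime 2 → ¬ W.InZeroComponentAt A Q)
    (h3Δ : (3 : ℤ) ∣ W.Δ) (h3c₄ : ¬ (3 : ℤ) ∣ W.c₄)
    (h3 : ∀ A : ValuationSubring (AlgebraicClosure ℚ), A.LiesOverPrime 3 → ¬ W.InZeroComponentAt A Q)
    {ℓ : ℕ} (hℓ : ℓ.Prime) (hℓp : ℓ ≠ p) (hℓΔ : (ℓ : ℤ) ∣ W.Δ) (hℓc₄ : ¬ (ℓ : ℤ) ∣ W.c₄)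
    (A : ValuationSubring (AlgebraicClosure ℚ)) (hA : A.LiesOverPrime ℓ) :
    ¬ W.InZeroComponentAt A Q := by
  have := Fact.mk hp
  refine assembly hp' (fun q hq hqd => heckeKill_of_eis (H p q hq ?_)) W hΔ Q hQfix hQord h2Δ h2c₄
    h2 h3Δ h3c₄ h3 hℓ hℓp hℓΔ hℓc₄ A hA
  rintro rfl
  have hpc : (q - 1) • cuspClass q = 0 := by
    have := smul_cuspClass (p := q)
    rw [← natCast_zsmul, Nat.cast_sub hq.one_le, Nat.cast_one]
    exact this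
  have h1 := Nat.le_of_dvd (by have := hq.two_le; omega)
    (hqd.trans (addOrderOf_dvd_of_nsmul_eq_zero hpc))
  have := hq.two_le
  omega

end Fermat.Agent.S15x
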