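import Fermat.Agent.S15.Red

/-!
# Uniqueness of the point with given values and given reduction
-/

set_option autoImplicit false

open ModularCurve AlgebraicCurve
open Fermat.Agent.Moduli

noncomputable section

namespace Fermat.Agent.S15x

section Abstract

variable {K F k F' : Type*} [Field K] [Field F] [Algebra K F] [Field k] [Field F'] [Algebra k F']
  [FF.IsFF K F] {r : Place K F → Place k F'} {P0 Pi : Place K F}

theorem exists_neg_of_ord_neg {f : F} {g : F'}
    (hfg : ∀ w, Finsupp.mapDomain r (FF.divOf (K := K) f) w = w.ord g) {w : Place k F'}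
    (hw : w.ord g < 0) : ∃ z : Place K F, z.ord f < 0 ∧ r z = w := by
  classical
  rw [← hfg, mapDomain_apply_eq_sum] at hw
  obtain ⟨z, hz, hz'⟩ := Finset.exists_lt_of_sum_lt (s := (FF.divOf (K := K) f).support.filter
    (fun z => r z = w)) (f := fun z => FF.divOf (K := K) f z) (g := fun _ => 0) (by simpa using hw)
  rw [Finset.mem_filter] at hz
  rw [FF.divOf_apply] at hz'
  exact ⟨z, hz', hz.2⟩

/-- If a zero of `f` reduces to the reduction of the simple pole `P0` then the degree drops. -/
theorem finrank_le_of_cancel [IsAlgClosed k] [FF.IsFF k F'] {f : F} {g : F'} {p : ℕ}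
    (hfg : ∀ w, Finsupp.mapDomain r (FF.divOf (K := K) f) w = w.ord g)
    (hri : r P0 ≠ r Pi) (h0 : P0.ord f = -1) (hi : Pi.ord f = -p)
    (ho : ∀ z, z ≠ P0 → z ≠ Pi → 0 ≤ z.ord f) {x : Place K F} (hx : 0 < x.ord f)
    (hrx : r x = r P0) (hg : Transcendental k g) :
    Module.finrank (IntermediateField.adjoin k {g}) F' ≤ p := by
  classical
  have hx0 : x ≠ P0 := by rintro rfl; omega
  have hxi : x ≠ Pi := by rintro rfl; rw [hi] at hx; omega
  have ht : Transcendental k g⁻¹ := fun h => hg (by simpa using h.inv)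
  have hs := FF.sum_ord_eq_finrank ht
  have e : IntermediateField.adjoin k {g⁻¹} = IntermediateField.adjoin k {g} := by
    apply le_antisymm
    · rw [IntermediateField.adjoin_simple_le_iff]
      exact inv_mem (IntermediateField.mem_adjoin_simple_self _ _)
    · rw [IntermediateField.adjoin_simple_le_iff]
      have := inv_mem (IntermediateField.mem_adjoin_simple_self k g⁻¹)
      rwa [inv_inv] at this
  rw [e] at hs
  -- the zeros of `g⁻¹`
  have hz : (FF.finite_zeros ht).toFinset ⊆ {r Pi} := by
    intro w hw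
    rw [Set.Finite.mem_toFinset] at hw
    have hw' : w.ord g < 0 := by
      have : 0 < w.ord g⁻¹ := hw
      rw [w.ord_inv] at this
      omega
    obtain ⟨z, hz1, hz2⟩ := exists_neg_of_ord_neg hfg hw'
    rw [Finset.mem_singleton]
    by_cases h1 : z = Pi
    · rw [← hz2, h1]
    exfalso
    by_cases h2 : z = P0
    · have h3 := hfg w
      rw [mapDomain_apply_eq_sum] at h3
      have h4 := sum_ge_of_two ((FF.divOf (K := K) f).support.filter (fun z => r z = w))
        (fun z => FF.divOf (K := K) f z) (i := P0) (x := x) (-1) (by norm_num) hx0.symm (by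
          rw [Finset.mem_filter, Finsupp.mem_support_iff, FF.divOf_apply]
          exact ⟨hx.ne', by rw [hrx, ← hz2, h2]⟩) (by
          rw [FF.divOf_apply, h0]) (by rw [FF.divOf_apply]; exact hx) (by
          intro z' hz' hz0
          rw [Finset.mem_filter] at hz'
          rw [FF.divOf_apply]
          refine ho z' hz0 ?_
          rintro rfl
          apply hri
          rw [hz'.2, ← hz2, h2])
      rw [h3] at h4
      omega
    · have := ho z h2 h1
      omega
  have h5 : ∑ w ∈ (FF.finite_zeros ht).toFinset, w.ord g⁻¹ ≤ ∑ w ∈ {r Pi}, (p : ℤ) := by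
    refine (Finset.sum_le_sum (g := fun _ => (p : ℤ)) ?_).trans
      (Finset.sum_le_sum_of_subset_of_nonneg hz fun _ _ _ => by omega)
    intro w hw
    have hw1 := hz hw
    rw [Finset.mem_singleton] at hw1
    rw [w.ord_inv, ← hfg w, mapDomain_apply_eq_sum, neg_le]
    have h6 : ∑ z ∈ (FF.divOf (K := K) f).support.filter (fun z => r z = w),
        (if z = Pi then -(p : ℤ) else 0) ≤
        ∑ z ∈ (FF.divOf (K := K) f).support.filter (fun z => r z = w),
          FF.divOf (K := K) f z := by
      refine Finset.sum_le_sum fun z hz => ?_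
      rw [Finset.mem_filter] at hz
      rw [FF.divOf_apply]
      by_cases h1 : z = Pi
      · rw [if_pos h1, h1, hi]
      · rw [if_neg h1]
        refine ho z ?_ h1
        rintro rfl
        apply hri
        rw [hz.2, hw1]
    refine le_trans ?_ h6
    rw [Finset.sum_ite_eq']
    split_ifs <;> omega
  rw [hs, Finset.sum_singleton] at h5
  exact_mod_cast h5

/-- Uniqueness of the zero reducing to the simple pole. -/
theorem eq_of_red_eq {f : F}
    (hf : ∀ w, Finsupp.mapDomain r (FF.divOf (K := K) f) w = 0)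
    (hri : r P0 ≠ r Pi) (h0 : P0.ord f = -1) (ho : ∀ z, z ≠ P0 → z ≠ Pi → 0 ≤ z.ord f)
    {x x' : Place K F} (hx : 0 < x.ord f) (hx' : 0 < x'.ord f)
    (hrx : r x = r P0) (hrx' : r x' = r P0) : x = x' := by
  classical
  by_contra hne
  have h := hf (r P0)
  rw [mapDomain_apply_eq_sum] at h
  have hx0 : x ≠ P0 := by rintro rfl; omega
  have hx0' : x' ≠ P0 := by rintro rfl; omega
  have hmem : ∀ {y : Place K F}, 0 < y.ord f → r y = r P0 →
      y ∈ (FF.divOf (K := K) f).support.filter (fun z => r z = r P0) := by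
    intro y hy hry
    rw [Finset.mem_filter, Finsupp.mem_support_iff, FF.divOf_apply]
    exact ⟨hy.ne', hry⟩
  have hle : ∑ z ∈ (FF.divOf (K := K) f).support.filter (fun z => r z = r P0),
      ((if z = P0 then (-1 : ℤ) else 0) + (if z = x then 1 else 0) + (if z = x' then 1 else 0)) ≤
      ∑ z ∈ (FF.divOf (K := K) f).support.filter (fun z => r z = r P0),
        FF.divOf (K := K) f z := by
    refine Finset.sum_le_sum fun z hz => ?_
    rw [Finset.mem_filter] at hz
    rw [FF.divOf_apply]
    by_cases h1 : z = P0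
    · subst h1
      rw [if_pos rfl, if_neg hx0.symm, if_neg hx0'.symm, h0]
      norm_num
    · have h2 : 0 ≤ z.ord f := ho z h1 (by rintro rfl; exact hri hz.2.symm)
      rw [if_neg h1]
      by_cases h3 : z = x
      · rw [if_pos h3, if_neg (by rw [h3]; exact hne), h3]
        omega
      · rw [if_neg h3]
        by_cases h4 : z = x'
        · rw [if_pos h4, h4]; omega
        · rw [if_neg h4]; simpa using h2
  rw [h, Finset.sum_add_distrib, Finset.sum_add_distrib, Finset.sum_ite_eq', Finset.sum_ite_eq',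
    Finset.sum_ite_eq', if_pos (hmem hx hrx), if_pos (hmem hx' hrx')] at hle
  split_ifs at hle <;> omega

omit [FF.IsFF K F] in
theorem ord_sub_const (v : Place K F) {f : F} (c : K) (h : v.ord f < 0) :
    v.ord (f - algebraMap K F c) = v.ord f := by
  have hf : f ≠ 0 := by rintro rfl; rw [Place.ord_zero] at h; exact lt_irrefl _ h
  by_cases hc : c = 0
  · rw [hc, map_zero, sub_zero]
  · rw [sub_eq_add_neg]
    refine (FF.ord_add_eq_of_lt v hf
      (neg_ne_zero.mpr ((map_ne_zero (algebraMap K F)).mpr hc)) ?_).2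
    rw [FF.ord_neg, FF.ord_algebraMap]
    exact h

omit [FF.IsFF K F] in
theorem ord_sub_const_nonneg (v : Place K F) {f : F} (c : K) (h : 0 ≤ v.ord f) :
    0 ≤ v.ord (f - algebraMap K F c) := by
  by_cases hf : f - algebraMap K F c = 0
  · rw [hf, Place.ord_zero]
  · refine (FF.mem_iff_ord_nonneg v hf).mp (sub_mem ?_ (v.algebraMap_mem' c))
    by_cases h0 : f = 0
    · rw [h0]; exact zero_mem _
    · exact (FF.mem_iff_ord_nonneg v h0).mpr h

end Abstract

section Concrete

/-- the algebraic numbers -/
local notation "𝕂" => AlgebraicClosure ℚ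

variable {p : ℕ} [hp : Fact p.Prime] {A : ValuationSubring 𝕂} {k : Type*} [Field k] {π : A →+* k}
  {r : Place 𝕂 (modularFunctionFieldBar p) → Place k (modularFunctionFieldFullC k p)}

theorem ord_zero_jp_sub (b : 𝕂) :
    (cuspZero p).ord (jpF p - algebraMap 𝕂 (modularFunctionFieldBar p) b) = -1 := by
  rw [ord_sub_const _ _ (by rw [ord_zero_jp]; norm_num), ord_zero_jp]

theorem ord_inf_jp_sub (b : 𝕂) :
    (MW.cuspInf p).ord (jpF p - algebraMap 𝕂 (modularFunctionFieldBar p) b) = -p := by
  rw [ord_sub_const _ _ (by rw [ord_inf_jp]; have := hp.out.pos; omega), ord_inf_jp]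

theorem ord_jp_sub_nonneg (b : 𝕂) (z : Place 𝕂 (modularFunctionFieldBar p)) (h0 : z ≠ cuspZero p)
    (hi : z ≠ MW.cuspInf p) :
    0 ≤ z.ord (jpF p - algebraMap 𝕂 (modularFunctionFieldBar p) b) :=
  ord_sub_const_nonneg _ _ (ord_jp_nonneg p hi h0)

variable (p k) in
theorem jpF'_ord : (qInf p k).ord (jpF' p k) = -p := by
  rw [ord_qInf]
  change (qExpand k p (jqModC k)).order = _
  rw [X0Emb.order_qExpand, X0Emb.order_jqModC]
  ring

theorem jpF'_sub_ne_zero (c : k) :
    jpF' p k - algebraMap k (modularFunctionFieldFullC k p) c ≠ 0 := by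
  intro h
  have h1 := ord_sub_const (qInf p k) (f := jpF' p k) c (by
    rw [jpF'_ord]; have := hp.out.pos; omega)
  rw [h, Place.ord_zero, jpF'_ord] at h1
  have := hp.out.pos
  omega

/-- The values of `j_p` at the points reducing to the cusp `0` are not integral. -/
theorem jp_not_mem (hr : IsPlaceReductionAlong A π p r)
    (hu : uSer p k ∈ modularFunctionFieldFullC k p)
    [IsAlgClosed k] [FF.IsFF k (modularFunctionFieldFullC k p)]
    (hfr : p < Module.finrank (IntermediateField.adjoin k {jpF' p k})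
      (modularFunctionFieldFullC k p)) {b : 𝕂}
    {x : Place 𝕂 (modularFunctionFieldBar p)}
    (hx : 0 < x.ord (jpF p - algebraMap 𝕂 (modularFunctionFieldBar p) b))
    (hrx : r x = r (cuspZero p)) : b ∉ A := by
  intro hb
  obtain ⟨hri, hr0⟩ := red_cusps hr hu
  set g : modularFunctionFieldFullC k p :=
    jpF' p k - algebraMap k (modularFunctionFieldFullC k p) (π ⟨b, hb⟩) with hg
  have hg0 : g ≠ 0 := jpF'_sub_ne_zero _
  have hgo : (qInf p k).ord g = -p := by
    rw [hg, ord_sub_const _ _ (by rw [jpF'_ord]; have := hp.out.pos; omega), jpF'_ord]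
  have ht : Transcendental k g := FF.transcendental_of_ord_ne_zero (qInf p k) (by
    rw [hgo]; have := hp.out.pos; omega)
  have e : IntermediateField.adjoin k {g} = IntermediateField.adjoin k {jpF' p k} := by
    apply le_antisymm
    · rw [IntermediateField.adjoin_simple_le_iff]
      exact sub_mem (IntermediateField.mem_adjoin_simple_self _ _)
        (IntermediateField.algebraMap_mem _ _)
    · rw [IntermediateField.adjoin_simple_le_iff]
      have := add_mem (IntermediateField.mem_adjoin_simple_self k g)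
        (IntermediateField.algebraMap_mem (IntermediateField.adjoin k {g}) (π ⟨b, hb⟩))
      rwa [hg, sub_add_cancel] at this
  have h := finrank_le_of_cancel (p := p) (red_div hr
    (qExpand A p (jqModC A) - cst ⟨b, hb⟩) (f := jpF p -
      algebraMap 𝕂 (modularFunctionFieldBar p) b) (g := g) (by
      rw [map_sub, coeffMap_cst, coeffMap_qExpand, coeffMap_jqModC]
      change _ = qExpand 𝕂 p (jqModC 𝕂) - algebraMap 𝕂 (LaurentSeries 𝕂) b
      rw [← cst_eq_algebraMap]
      rfl) (by
      rw [map_sub, coeffMap_cst, coeffMap_qExpand, coeffMap_jqModC]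
      change _ = qExpand k p (jqModC k) - algebraMap k (LaurentSeries k) (π ⟨b, hb⟩)
      rw [← cst_eq_algebraMap]) hg0) (P0 := cuspZero p) (Pi := MW.cuspInf p)
    (by rw [hri]; exact hr0) (ord_zero_jp_sub b) (ord_inf_jp_sub b)
    (fun z h1 h2 => ord_jp_sub_nonneg b z h1 h2) hx hrx ht
  rw [e] at h
  omega

/-- Uniqueness of the point with given `j_p`, reducing to the cusp `0`. -/
theorem eq_of_jp_eq (hπ : ∀ a : A, (a : 𝕂) ∈ A.nonunits → π a = 0)
    (hr : IsPlaceReductionAlong A π p r)
    (hu : uSer p k ∈ modularFunctionFieldFullC k p)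
    [IsAlgClosed k] [FF.IsFF k (modularFunctionFieldFullC k p)]
    (hfr : p < Module.finrank (IntermediateField.adjoin k {jpF' p k})
      (modularFunctionFieldFullC k p)) {b : 𝕂}
    {x x' : Place 𝕂 (modularFunctionFieldBar p)}
    (hx : 0 < x.ord (jpF p - algebraMap 𝕂 (modularFunctionFieldBar p) b))
    (hx' : 0 < x'.ord (jpF p - algebraMap 𝕂 (modularFunctionFieldBar p) b))
    (hrx : r x = r (cuspZero p)) (hrx' : r x' = r (cuspZero p)) : x = x' := by
  have hb := jp_not_mem hr hu hfr hx hrx
  obtain ⟨hri, hr0⟩ := red_cusps hr hu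
  exact eq_of_red_eq (P0 := cuspZero p) (Pi := MW.cuspInf p)
    (fun w => sum_eq_zero_of_not_mem hπ hr (qExpand A p (jqModC A)) (by
      rw [coeffMap_qExpand, coeffMap_jqModC]; rfl) hb w)
    (by rw [hri]; exact hr0) (ord_zero_jp_sub b) (fun z h1 h2 => ord_jp_sub_nonneg b z h1 h2)
    hx hx' hrx hrx'

end Concrete

end Fermat.Agent.S15x
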