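import Fermat.Agent.Igusa.Degree
import Fermat.Agent.S15.Fix

/-!
# The degree of the special fibre of `X₀(p)` over the `j_p`-line
-/

set_option autoImplicit false

open ModularCurve AlgebraicCurve
open Fermat.Agent.Moduli Fermat.Agent.S28aux

noncomputable section

namespace Fermat.Agent.S15x

variable (p : ℕ) [hp : Fact p.Prime] (k : Type*) [Field k]

theorem yE_mem_full (hpk : (p : k) ≠ 0) {x : LaurentSeries ℤ} (hx : x ∈ Submonoid.closure (YZ p)) :
    coeffMap (Int.castRingHom k) x ∈ modularFunctionFieldFullC k p := by
  induction hx using Submonoid.closure_induction with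
  | mem x hx =>
    obtain ⟨e, he0, he, rfl⟩ := hx
    have : NeZero e := ⟨he0⟩
    have he' : (e : k) ≠ 0 := Igusa.natCast_ne_zero_of_dvd he hpk
    rw [coeffMap_yE, yE, qx_eq, qx_eq]
    have h1 := Igusa.deltaRatio_mem k p e he he'
    have h2 := Igusa.deltaRatio_mem k p p dvd_rfl hpk
    have h3 := mul_mem h1 (inv_mem h2)
    convert h3 using 1
    rw [deltaInvC_eq, map_inv₀, mul_inv, inv_inv]
    have h0 := deltaC_ne_zero k
    field_simp
  | one => rw [map_one]; exact one_mem _
  | mul x y _ _ hx hy => rw [map_mul]; exact mul_mem hx hy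

theorem lt_finrank_jpF' (hpk : (p : k) ≠ 0) [IsAlgClosed k]
    [FF.IsFF k (modularFunctionFieldFullC k p)] :
    p < Module.finrank (IntermediateField.adjoin k {jpF' p k})
      (modularFunctionFieldFullC k p) := by
  have ht : Transcendental k (jpF' p k) := FF.transcendental_of_ord_ne_zero (qInf p k) (by
    rw [jpF'_ord]; have := hp.out.pos; omega)
  have hfin := FF.IsFF.finite_adjoin (K := k) (F := modularFunctionFieldFullC k p) (jpF' p k) ht
  have hA1 : ∀ q, q.Prime → q ∣ p → ∀ [NeZero q], ModUnitPoly q := by
    intro q hq _ _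
    have := Fact.mk hq
    exact Igusa.modUnitPoly q
  obtain ⟨ω, hω, hli⟩ := residual_basis (k := k) hp.out.ne_zero hpk hA1
  have hcard : (∏ q ∈ p.primeFactors, (q + 1)) * (p / ∏ q ∈ p.primeFactors, q) = p + 1 := by
    rw [← Igusa.dedekindPsi_eq p hp.out.ne_zero, dedekindPsi_p]
  -- the image of the coefficient field
  have hJ : ∀ g : IntermediateField.adjoin k {jpF' p k},
      ((g : modularFunctionFieldFullC k p) : LaurentSeries k) ∈ KJ k p := by
    intro g
    have h1 : (modularFunctionFieldFullC k p).val (g : modularFunctionFieldFullC k p) ∈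
        (IntermediateField.adjoin k {jpF' p k}).map (modularFunctionFieldFullC k p).val :=
      ⟨g, g.2, rfl⟩
    rw [IntermediateField.adjoin_map, Set.image_singleton] at h1
    have h2 : (modularFunctionFieldFullC k p).val (jpF' p k) = JN k p := by
      rw [JN, qx_eq]; rfl
    rw [h2] at h1
    exact h1
  have hv : LinearIndependent (IntermediateField.adjoin k {jpF' p k})
      (fun i => (⟨coeffMap (Int.castRingHom k) (ω i), yE_mem_full p k hpk (hω i)⟩ :
        modularFunctionFieldFullC k p)) := by
    rw [Fintype.linearIndependent_iff] at hli ⊢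
    intro g hg i
    have h1 := hli (fun i => ⟨_, hJ (g i)⟩) (by
      have h2 := congrArg (fun z : modularFunctionFieldFullC k p => (z : LaurentSeries k)) hg
      change ((∑ i, g i • (⟨coeffMap (Int.castRingHom k) (ω i), yE_mem_full p k hpk (hω i)⟩ :
        modularFunctionFieldFullC k p) : modularFunctionFieldFullC k p) : LaurentSeries k) = 0 at h2
      rw [AddSubmonoidClass.coe_finsetSum] at h2
      rw [← h2]
      refine Finset.sum_congr rfl fun j _ => ?_
      rfl) i
    have h3 : ((g i : modularFunctionFieldFullC k p) : LaurentSeries k) = 0 :=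
      congrArg Subtype.val h1
    apply Subtype.ext
    apply Subtype.ext
    exact h3
  have h := hv.fintype_card_le_finrank
  rw [Fintype.card_fin, hcard] at h
  omega

end Fermat.Agent.S15x
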