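import Fermat.Agent.S15.Values
import Fermat.Agent.S15.DegJp
import Fermat.Agent.Mazur.CuspModL
import Fermat.Agent.S18
import Fermat.Agent.S37aux.RI

/-!
# Assembly of Mazur's argument (Step 3)
-/

set_option autoImplicit false
set_option synthInstance.maxHeartbeats 400000

open ModularCurve AlgebraicCurve
open WeierstrassCurve WeierstrassCurve.Affine WeierstrassCurve.Affine.Point
open Fermat.Agent.Isog (nz kap fN xc eta IsTwo Split)
open Fermat.Agent.Moduli Fermat.Agent.MazurCusp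

noncomputable section

namespace Fermat.Agent.S15x

/-- the algebraic numbers -/
local notation "𝕂" => AlgebraicClosure ℚ

section Reduction

variable {p : ℕ} [hp : Fact p.Prime] {A : ValuationSubring 𝕂} {ℓ : ℕ}

theorem natCast_residue_ne_zero (hℓ : ℓ.Prime) (hA : A.LiesOverPrime ℓ) (hℓp : ℓ ≠ p) :
    (p : IsLocalRing.ResidueField A) ≠ 0 := by
  have := Fact.mk hℓ
  have := TEll.charP_residueField A ℓ hA
  rw [Ne, CharP.cast_eq_zero_iff (IsLocalRing.ResidueField A) ℓ]
  exact fun h => hℓp ((Nat.prime_dvd_prime_iff_eq hℓ hp.out).mp h)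

theorem residue_eq_zero (a : A) (h : (a : 𝕂) ∈ A.nonunits) : IsLocalRing.residue A a = 0 := by
  rw [IsLocalRing.residue_eq_zero_iff, ← ValuationSubring.coe_mem_nonunits_iff]
  exact h

/-- The data at a point. -/
structure PointData (x : Place 𝕂 (modularFunctionFieldBar p)) (a b c : 𝕂) : Prop where
  j : 0 < x.ord (X0Emb.jF p - algebraMap 𝕂 (modularFunctionFieldBar p) a)
  jp : 0 < x.ord (jpF p - algebraMap 𝕂 (modularFunctionFieldBar p) b)
  u : 0 < x.ord (uF p - algebraMap 𝕂 (modularFunctionFieldBar p) c)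

variable {x x' : Place 𝕂 (modularFunctionFieldBar p)} {a b c : 𝕂}

/-- the reduction is the cusp `0`. -/
theorem PointData.red_zero (D : PointData x a b c) (hℓ : ℓ.Prime) (hA : A.LiesOverPrime ℓ)
    (hℓp : ℓ ≠ p) (h : ReductionInputsModL A p) (ha : a ∉ A) (hac : c / a ^ (p - 1) ∈ A.nonunits) :
    placeReductionModL h x = placeReductionModL h (cuspZero p) := by
  have hpk := natCast_residue_ne_zero (p := p) hℓ hA hℓp
  have hr := isPlaceReductionModL_placeReductionModL h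
  have ha0 : a ≠ 0 := by rintro rfl; exact ha (zero_mem _)
  rcases red_eq_cusp (fun a h => residue_eq_zero a h) hr ha D.j with h1 | h1
  · exact absurd h1 (red_ne_inf (fun a h => residue_eq_zero a h) hr (uSer_mem_full _ p hpk)
      ha0 hac D.j D.u)
  · exact h1

/-- the reduction is the cusp `∞`. -/
theorem PointData.red_inf (D : PointData x a b c) (h : ReductionInputsModL A p) (hc : c ∉ A) :
    placeReductionModL h x = placeReductionModL h (MW.cuspInf p) :=
  red_eq_inf (fun a h => residue_eq_zero a h) (isPlaceReductionModL_placeReductionModL h) hc D.u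

/-- uniqueness of the point. -/
theorem PointData.unique [IsAlgClosed (IsLocalRing.ResidueField A)]
    (D : PointData x a b c) (D' : PointData x' a b c) (hℓ : ℓ.Prime)
    (hA : A.LiesOverPrime ℓ) (hℓp : ℓ ≠ p) (h : ReductionInputsModL A p) (ha : a ∉ A)
    (hac : c / a ^ (p - 1) ∈ A.nonunits) : x = x' := by
  have hpk := natCast_residue_ne_zero (p := p) hℓ hA hℓp
  have hFF := isFF_full (IsLocalRing.ResidueField A) p hpk
  exact eq_of_jp_eq (fun a h => residue_eq_zero a h) (isPlaceReductionModL_placeReductionModL h)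
    (uSer_mem_full _ p hpk) (lt_finrank_jpF' p _ hpk) D.jp D'.jp
    (D.red_zero hℓ hA hℓp h ha hac) (D'.red_zero hℓ hA hℓp h ha hac)

/-- Galois conjugates of the point. -/
theorem PointData.galois (D : PointData x a b c) (σ : 𝕂 ≃ₐ[ℚ] 𝕂) (ha : σ a = a) (hb : σ b = b)
    (hc : σ c = c) :
    PointData (arithmeticGalois (modularFunctionFieldFull p) σ • x) a b c := by
  have key : ∀ {f : modularFunctionFieldBar p} {d : 𝕂},
      arithmeticGalois (modularFunctionFieldFull p) σ • f = f → σ d = d →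
      0 < x.ord (f - algebraMap 𝕂 (modularFunctionFieldBar p) d) →
      0 < (arithmeticGalois (modularFunctionFieldFull p) σ • x).ord
        (f - algebraMap 𝕂 (modularFunctionFieldBar p) d) := by
    intro f d hf hd h
    have e : arithmeticGalois (modularFunctionFieldFull p) σ •
        (f - algebraMap 𝕂 (modularFunctionFieldBar p) d) =
        f - algebraMap 𝕂 (modularFunctionFieldBar p) d := by
      rw [smul_sub, hf, SemilinearAut.smul_algebraMap]
      congr 2
    rw [← e, SemilinearAut.ord_smul]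
    exact h
  exact ⟨key (galois_jF p σ) ha D.j, key (galois_jpF p σ) hb D.jp, key (galois_uF p σ) hc D.u⟩

/-- the divisor `(x) - (0)` -/
def ptDiv (x : Place 𝕂 (modularFunctionFieldBar p)) :
    Divisor.degZero (K := 𝕂) (F := modularFunctionFieldBar p) :=
  ⟨Finsupp.single x 1 - Finsupp.single (cuspZero p) 1, by
    rw [Divisor.mem_degZero, map_sub, Divisor.degree_single, Divisor.degree_single,
      FF.deg_eq_one, FF.deg_eq_one, sub_self]⟩

/-- the class of `(x) - (0)` -/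
def ptClass (x : Place 𝕂 (modularFunctionFieldBar p)) : JZero p := Pic0.mk (ptDiv x)

theorem galois_ptClass {x : Place 𝕂 (modularFunctionFieldBar p)} (σ : 𝕂 ≃ₐ[ℚ] 𝕂)
    (h : arithmeticGalois (modularFunctionFieldFull p) σ • x = x) :
    σ • ptClass x = ptClass x := by
  rw [galois_smul_pic0_def, ptClass, SemilinearAut.pic0_smul_mk]
  congr 1
  apply Subtype.ext
  rw [SemilinearAut.coe_degZeroSMulHom]
  change arithmeticGalois (modularFunctionFieldFull p) σ •
    (Finsupp.single x 1 - Finsupp.single (cuspZero p) 1 : Divisor 𝕂 (modularFunctionFieldBar p)) =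
    Finsupp.single x 1 - Finsupp.single (cuspZero p) 1
  rw [smul_sub, SemilinearAut.smul_single, SemilinearAut.smul_single, smul_cuspZero, h]

theorem red_ptClass (h : ReductionInputsModL A p)
    (hx : placeReductionModL h x = placeReductionModL h (cuspZero p)) :
    reductionModL A p (ptClass x) = 0 := by
  rw [ptClass, reductionModL_mk h]
  have e : reductionDegZeroAlong (placeReductionModL h)
      (isPlaceReductionModL_placeReductionModL h).1 (ptDiv x) = 0 := by
    apply Subtype.ext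
    rw [coe_reductionDegZeroAlong]
    change Finsupp.mapDomain _ (Finsupp.single x 1 - Finsupp.single (cuspZero p) 1 :
      Divisor 𝕂 (modularFunctionFieldBar p)) = 0
    rw [Finsupp.mapDomain_sub, Finsupp.mapDomain_single, Finsupp.mapDomain_single, hx, sub_self]
  rw [e, Pic0.mk_zero]

theorem red_ptClass_inf (h : ReductionInputsModL A p)
    (hx : placeReductionModL h x = placeReductionModL h (MW.cuspInf p)) :
    reductionModL A p (ptClass x + cuspClass p) = 0 := by
  rw [ptClass, cuspClass, ← Pic0.mk_add, reductionModL_mk h]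
  have e : reductionDegZeroAlong (placeReductionModL h)
      (isPlaceReductionModL_placeReductionModL h).1 (ptDiv x + cuspDiv p) = 0 := by
    apply Subtype.ext
    rw [coe_reductionDegZeroAlong]
    change Finsupp.mapDomain _ ((Finsupp.single x 1 - Finsupp.single (cuspZero p) 1) +
      (Finsupp.single (cuspZero p) 1 - Finsupp.single (MW.cuspInf p) 1) :
      Divisor 𝕂 (modularFunctionFieldBar p)) = 0
    rw [sub_add_sub_cancel, Finsupp.mapDomain_sub, Finsupp.mapDomain_single,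
      Finsupp.mapDomain_single, hx, sub_self]
  rw [e, Pic0.mk_zero]

end Reduction

/-- A Hecke operator which kills the rational points modulo torsion and which is prime to `q` on
the cuspidal class. -/
def HeckeKill (p : ℕ) [Fact p.Prime] (q : ℕ) : Prop :=
  ∃ s : JZero p →+ JZero p,
    (∀ x : JZero p, (∀ σ : 𝕂 ≃ₐ[ℚ] 𝕂, σ • x = x) → ∃ n : ℕ, n ≠ 0 ∧ n • s x = 0) ∧
    (∀ (ℓ : ℕ) (A : ValuationSubring 𝕂), ℓ.Prime → ℓ ≠ p → A.LiesOverPrime ℓ →
      ∀ z, reductionModL A p z = 0 → reductionModL A p (s z) = 0) ∧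
    ∃ a : ℤ, ¬ (q : ℤ) ∣ a ∧ s (cuspClass p) = a • cuspClass p

section Main

variable {p : ℕ} [hp : Fact p.Prime]

theorem not_dvd_of_ne {ℓ : ℕ} (hℓ : ℓ.Prime) (hℓp : ℓ ≠ p) : ¬ ℓ ∣ p := fun h =>
  hℓp ((Nat.prime_dvd_prime_iff_eq hℓ hp.out).mp h)

/-- torsion classes with trivial reduction at places above `2` and `3` vanish. -/
theorem eq_zero_of_red_two_three (h2p : 2 ≠ p) (h3p : 3 ≠ p) {A₂ A₃ : ValuationSubring 𝕂}
    (hA₂ : A₂.LiesOverPrime 2) (hA₃ : A₃.LiesOverPrime 3) {z : JZero p} {n : ℕ} (hn : n ≠ 0)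
    (hz : n • z = 0) (hz₂ : reductionModL A₂ p z = 0) (hz₃ : reductionModL A₃ p z = 0) :
    z = 0 := by
  have f2 := Fact.mk Nat.prime_two
  have f3 := Fact.mk Nat.prime_three
  have hd2 := not_dvd_of_ne (p := p) Nat.prime_two h2p
  have hd3 := not_dvd_of_ne (p := p) Nat.prime_three h3p
  obtain ⟨a, m, hm, rfl⟩ := Nat.exists_eq_two_pow_mul_odd hn
  have h1 : (2 ^ a) • z = 0 := by
    refine S18.result p hd2 A₂ hA₂ (S37aux.reductionInputsModL' Nat.prime_two hA₂ p hd2) m
      (by rw [Nat.two_dvd_ne_zero, Nat.odd_iff.mp hm]) _ ?_ ?_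
    · rw [← mul_smul, mul_comm, hz]
    · rw [map_nsmul, hz₂, nsmul_zero]
  refine S18.result p hd3 A₃ hA₃ (S37aux.reductionInputsModL' Nat.prime_three hA₃ p hd3) (2 ^ a)
    (fun h => ?_) _ h1 hz₃
  have := Nat.prime_three.dvd_of_dvd_pow h
  omega

/-- **Mazur's argument**, granted the Hecke operator. -/
theorem assembly (hp' : p ∉ ({2, 3, 5, 7, 13} : Finset ℕ))
    (hK : ∀ q : ℕ, q.Prime → q ∣ addOrderOf (cuspClass p) → HeckeKill p q)
    (W : WeierstrassCurve ℤ) (hΔ : W.Δ ≠ 0)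
    (Q : ((W.map (Int.castRingHom ℚ))⁄𝕂).Point)
    (hQfix : ∀ σ : 𝕂 ≃ₐ[ℚ] 𝕂, σ • Q = Q)
    (hQord : addOrderOf Q = p)
    (h2Δ : (2 : ℤ) ∣ W.Δ) (h2c₄ : ¬ (2 : ℤ) ∣ W.c₄)
    (h2 : ∀ A : ValuationSubring 𝕂, A.LiesOverPrime 2 → ¬ W.InZeroComponentAt A Q)
    (h3Δ : (3 : ℤ) ∣ W.Δ) (h3c₄ : ¬ (3 : ℤ) ∣ W.c₄)
    (h3 : ∀ A : ValuationSubring 𝕂, A.LiesOverPrime 3 → ¬ W.InZeroComponentAt A Q)
    {ℓ : ℕ} (hℓ : ℓ.Prime) (hℓp : ℓ ≠ p) (hℓΔ : (ℓ : ℤ) ∣ W.Δ) (hℓc₄ : ¬ (ℓ : ℤ) ∣ W.c₄)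
    (A : ValuationSubring 𝕂) (hA : A.LiesOverPrime ℓ) :
    ¬ W.InZeroComponentAt A Q := by
  classical
  intro hin
  have hne2 : p ≠ 2 := by rintro rfl; exact hp' (by decide)
  have hne3 : p ≠ 3 := by rintro rfl; exact hp' (by decide)
  have hℓ2 : ℓ ≠ 2 := by rintro rfl; exact h2 A hA hin
  have hℓ3 : ℓ ≠ 3 := by rintro rfl; exact h3 A hA hin
  have hℓ5 : 5 ≤ ℓ := by
    by_contra h
    have h4 : ℓ ≤ 4 := by omega
    interval_cases ℓ
    · exact Nat.not_prime_zero hℓ
    · exact Nat.not_prime_one hℓ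
    · exact hℓ2 rfl
    · exact hℓ3 rfl
    · exact absurd hℓ (by decide)
  -- the point of `X₀(p)`
  have hfin : Finite (AddSubgroup.zmultiples Q) := by
    have : 0 < addOrderOf Q := by rw [hQord]; exact hp.out.pos
    have h1 : Nat.card (AddSubgroup.zmultiples Q) ≠ 0 := by
      rw [Nat.card_zmultiples]; exact this.ne'
    exact Nat.finite_of_card_ne_zero h1
  have hFin : Fintype (AddSubgroup.zmultiples Q) := Fintype.ofFinite _
  have hΔ' : ((W.map (Int.castRingHom ℚ))⁄𝕂).Δ ≠ 0 := by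
    rw [bc_Δ]; exact_mod_cast hΔ
  have hVΔ : (W.map (Int.castRingHom ℚ)).Δ ≠ 0 := by
    rw [WeierstrassCurve.map_Δ]
    simpa using hΔ
  obtain ⟨e, e', e'', hs⟩ := exists_split (F := 𝕂) (W := ((W.map (Int.castRingHom ℚ))⁄𝕂))
    two_ne_zero hΔ'
  obtain ⟨x, hxj, hxjp, hxu⟩ := exists_place (V := W.map (Int.castRingHom ℚ)) hVΔ hne2 Q hQord hs
  have D : PointData x (jW W) (jjN (AddSubgroup.zmultiples Q) e e' e'')
      (uu (AddSubgroup.zmultiples Q) e e' e'') := ⟨hxj, hxjp, hxu⟩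
  -- places above `2` and `3`
  obtain ⟨A₂, hA₂⟩ := Frob.exists_liesOverPrime 2 Nat.prime_two
  obtain ⟨A₃, hA₃⟩ := Frob.exists_liesOverPrime 3 Nat.prime_three
  have R₂ := S37aux.reductionInputsModL' Nat.prime_two hA₂ p
    (not_dvd_of_ne Nat.prime_two hne2.symm)
  have R₃ := S37aux.reductionInputsModL' Nat.prime_three hA₃ p
    (not_dvd_of_ne Nat.prime_three hne3.symm)
  have Rℓ := S37aux.reductionInputsModL' hℓ hA p (not_dvd_of_ne hℓ hℓp)
  have ha₂ : jW W ∉ A₂ := jW_not_mem Nat.prime_two hA₂ hΔ (by exact_mod_cast h2Δ)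
    (by exact_mod_cast h2c₄)
  have ha₃ : jW W ∉ A₃ := jW_not_mem Nat.prime_three hA₃ hΔ (by exact_mod_cast h3Δ)
    (by exact_mod_cast h3c₄)
  have hu₂ := uu_div_nonunit (e := e) (e' := e') (e'' := e'') hp.out hne2 hQord hΔ hs
    Nat.prime_two hne2.symm hA₂ (by exact_mod_cast h2c₄) (h2 A₂ hA₂)
  have hu₃ := uu_div_nonunit (e := e) (e' := e') (e'' := e'') hp.out hne2 hQord hΔ hs
    Nat.prime_three hne3.symm hA₃ (by exact_mod_cast h3c₄) (h3 A₃ hA₃)
  have huℓ := uu_not_mem (e := e) (e' := e') (e'' := e'') hp.out hne2 hQord hΔ hs hℓ hℓ2 hℓp hA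
    hℓΔ hℓc₄ hin
  have hx₂ := D.red_zero Nat.prime_two hA₂ hne2.symm R₂ ha₂ hu₂
  have hx₃ := D.red_zero Nat.prime_three hA₃ hne3.symm R₃ ha₃ hu₃
  have hxℓ := D.red_inf Rℓ huℓ
  -- the point is rational
  have hfix : ∀ σ : 𝕂 ≃ₐ[ℚ] 𝕂, σ • ptClass x = ptClass x := by
    intro σ
    apply galois_ptClass
    have D' := D.galois σ (galois_jW σ) (galois_jjN hp.out hne2 hQord (hQfix σ) hs)
      (galois_uu hp.out hne2 hQord hΔ (hQfix σ) hs)
    exact D'.unique D Nat.prime_two hA₂ hne2.symm R₂ ha₂ hu₂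
  -- the Hecke operator
  have hc0 := cuspClass_ne_zero (p := p) hp'
  have hpc : (p - 1) • cuspClass p = 0 := by
    have := smul_cuspClass (p := p)
    rw [← natCast_zsmul, Nat.cast_sub hp.out.one_le, Nat.cast_one]
    exact this
  have hord0 : addOrderOf (cuspClass p) ∣ p - 1 := addOrderOf_dvd_of_nsmul_eq_zero hpc
  have hord : addOrderOf (cuspClass p) ≠ 0 := by
    intro h
    rw [h, zero_dvd_iff] at hord0
    have := hp.out.one_lt
    omega
  have hord1 : addOrderOf (cuspClass p) ≠ 1 := by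
    rw [Ne, AddMonoid.addOrderOf_eq_one_iff]
    exact hc0
  set q := (addOrderOf (cuspClass p)).minFac with hqdef
  have hq : q.Prime := Nat.minFac_prime hord1
  have hqd : q ∣ addOrderOf (cuspClass p) := Nat.minFac_dvd _
  obtain ⟨s, hs1, hs2, a, ha, hsa⟩ := hK q hq hqd
  -- `s (x) = 0`
  have hz : s (ptClass x) = 0 := by
    obtain ⟨n, hn, hnz⟩ := hs1 _ hfix
    exact eq_zero_of_red_two_three hne2.symm hne3.symm hA₂ hA₃ hn hnz
      (hs2 2 A₂ Nat.prime_two hne2.symm hA₂ _ (red_ptClass R₂ hx₂))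
      (hs2 3 A₃ Nat.prime_three hne3.symm hA₃ _ (red_ptClass R₃ hx₃))
  have hred : reductionModL A p (a • cuspClass p) = 0 := by
    have h1 := hs2 ℓ A hℓ hℓp hA _ (red_ptClass_inf Rℓ hxℓ)
    rw [map_add, hz, zero_add, hsa] at h1
    exact h1
  by_cases hqℓ : q = ℓ
  · have h1 := smul_reductionModL_cuspClass_ne_zero (p := p) hℓ hA hℓ5
      (hqℓ ▸ hqd.trans hord0) Rℓ (n := a) (hqℓ ▸ ha)
    rw [map_zsmul] at hred
    exact h1 hred
  · have f1 := Fact.mk hℓ
    obtain ⟨k, m, hm, hkm⟩ := Nat.exists_eq_pow_mul_and_not_dvd hord q hq.ne_one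
    have hk : k ≠ 0 := by
      rintro rfl
      rw [pow_zero, one_mul] at hkm
      exact hm (hkm ▸ hqd)
    have hw : m • a • cuspClass p = 0 := by
      refine S18.result p (not_dvd_of_ne hℓ hℓp) A hA Rℓ (q ^ k) (fun h => ?_) _ ?_ ?_
      · exact hqℓ ((Nat.prime_dvd_prime_iff_eq hℓ hq).mp (hℓ.dvd_of_dvd_pow h)).symm
      · rw [← mul_smul, ← hkm, smul_comm, addOrderOf_nsmul_eq_zero, smul_zero]
      · rw [map_nsmul, hred, nsmul_zero]
    have hdvd : ((addOrderOf (cuspClass p) : ℕ) : ℤ) ∣ (m : ℤ) * a := by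
      rw [addOrderOf_dvd_iff_zsmul_eq_zero, mul_smul, natCast_zsmul]
      exact hw
    have h3 : ((q : ℕ) : ℤ) ∣ (m : ℤ) * a :=
      (Int.natCast_dvd_natCast.mpr hqd).trans hdvd
    rcases (Nat.prime_iff_prime_int.mp hq).dvd_or_dvd h3 with h4 | h4
    · exact hm (Int.natCast_dvd_natCast.mp h4)
    · exact ha h4

end Main

end Fermat.Agent.S15x
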