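import Fermat.Agent.S15.FromE2
import Fermat.Agent.S15.EisInp
import Fermat.Agent.HopfPair.Stab
import Fermat.Agent.Mazur.Descent
import Fermat.Agent.S17

/-!
# The Eisenstein descent for `J₀(N)` (unconditional)
-/

set_option autoImplicit false
set_option linter.style.haveILetI false

noncomputable section

open Fermat.Agent.GalRep ModularCurve AlgebraicCurve Fermat.Agent.Mazur
open Fermat.Agent.MazurCyc Fermat.Agent.S37aux Fermat.Agent.MazurEisJ

namespace Fermat.Agent.S15x

/-- the Eisenstein input for `J₀(N)`, `N` prime. -/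
theorem eisInput_uncond (N : ℕ) [NeZero N] (hN : N.Prime) {q : ℕ} (hq : q.Prime) (hqN : q ≠ N) :
    letI := modS N
    haveI := commClass N
    EisInput hq N (PE N q) (TS N) (JZero N) := by
  obtain ⟨A, hA⟩ := Frob.exists_liesOverPrime q hq
  exact eisInput_of_model N hN hq hqN ⟨A, hA, HopfPair.modelRed N hq hA (fun h =>
    hqN ((Nat.prime_dvd_prime_iff_eq hq hN).mp h))⟩

/-- **The Eisenstein descent.** -/
theorem descent (p : ℕ) [hp : Fact p.Prime] (q : ℕ) (hq : q.Prime) (hqp : q ≠ p) :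
    letI := MazurEisJ.modS p
    ∃ s ∉ MazurEisJ.PE p q, ∀ x : JZero p,
      (∀ σ : AlgebraicClosure ℚ ≃ₐ[ℚ] AlgebraicClosure ℚ, σ • x = x) →
      ∃ n : ℕ, n ≠ 0 ∧ n • s • x = 0 := by
  letI := modS p
  haveI := commClass p
  have := Fact.mk hq
  obtain ⟨s, hs, h⟩ := (eisInput_uncond p hp.out hq hqp).descent
    (FixedPoints.addSubgroup (AlgebraicClosure ℚ ≃ₐ[ℚ] AlgebraicClosure ℚ) (JZero p))
    (fun x => Iff.rfl) (S17.fg_invariants p)
  exact ⟨s, hs, fun x hx => h x hx⟩

end Fermat.Agent.S15x
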