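import Fermat.Agent.S15.Assembly
import Fermat.Agent.Mazur.HK
import Fermat.Agent.GalRep.Input

/-!
# The Hecke operator of Mazur's argument from the Hecke algebra
-/

set_option autoImplicit false
set_option synthInstance.maxHeartbeats 400000

open ModularCurve AlgebraicCurve
open Fermat.Agent.Moduli Fermat.Agent.MazurCusp Fermat.Agent.GalRep

noncomputable section

namespace Fermat.Agent.S15x

/-- the algebraic numbers -/
local notation "𝕂" => AlgebraicClosure ℚ

/-- Kernels of reduction are stable under the Hecke algebra. -/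
theorem red_hecke_smul {N : ℕ} [NeZero N] {ℓ : ℕ} (hℓ : ℓ.Prime) {A : ValuationSubring 𝕂}
    (hA : A.LiesOverPrime ℓ) (hN : ¬ ℓ ∣ N) (t : HeckeAlg) {z : JZero N}
    (hz : reductionModL A N z = 0) :
    reductionModL A N (letI := heckeModuleBar N; t • z) = 0 := by
  let _ := heckeModuleBar N
  change reductionModL A N (t • z) = 0
  induction t using MvPolynomial.induction_on with
  | C a =>
    rw [heckeModuleBar_C_smul, map_zsmul, hz, smul_zero]
  | add s t hs ht => rw [add_smul, map_add, hs, ht, add_zero]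
  | mul_X s r hs =>
    rw [mul_comm, mul_smul]
    have h1 : (MvPolynomial.X r : HeckeAlg) • (s • z) = heckeOperatorBar N r (s • z) :=
      heckeModuleBar_heckeGen_smul (HeckeComm.heckeOperatorsCommuteBar N) r (s • z)
    rw [h1]
    exact MazurHK.reductionModL_hecke hℓ hA hN r
      (fun M _ hM => S37aux.degC A M (S37aux.cast_ne_zero hℓ hA hM)) hs

section Main

variable {p : ℕ} [hp : Fact p.Prime]

/-- The Eisenstein eigencharacter `T_r ↦ 1 + r`. -/
def eisHom (p : ℕ) : HeckeAlgS ({p} : Set ℕ) →ₐ[ℤ] ℤ :=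
  MvPolynomial.aeval fun r => 1 + ((r.1 : ℕ) : ℤ)

theorem hecke_smul_cuspClass (t : HeckeAlgS ({p} : Set ℕ)) :
    (letI := heckeModuleBar p; inclS ({p} : Set ℕ) t • cuspClass p) =
      eisHom p t • cuspClass p := by
  let _ := heckeModuleBar p
  change inclS ({p} : Set ℕ) t • cuspClass p = eisHom p t • cuspClass p
  induction t using MvPolynomial.induction_on with
  | C a =>
    have e1 : inclS ({p} : Set ℕ) (MvPolynomial.C a) = MvPolynomial.C a := by
      rw [inclS, MvPolynomial.rename_C]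
    have e2 : eisHom p (MvPolynomial.C a) = a := by
      rw [eisHom, MvPolynomial.aeval_C]; rfl
    rw [e1, e2, heckeModuleBar_C_smul]
  | add s t hs ht => rw [map_add, map_add, add_smul, add_zsmul, hs, ht]
  | mul_X s r hs =>
    have e1 : inclS ({p} : Set ℕ) (MvPolynomial.X r) = heckeGen r.1 := by
      rw [inclS, MvPolynomial.rename_X]; rfl
    have e2 : eisHom p (MvPolynomial.X r) = 1 + ((r.1 : ℕ) : ℤ) := by
      rw [eisHom, MvPolynomial.aeval_X]
    have h1 : heckeGen r.1 • cuspClass p = (1 + ((r.1 : ℕ) : ℤ)) • cuspClass p :=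
      heckeGen_smul_cuspClass p r.1 r.2
    rw [map_mul, map_mul, mul_smul, e1, e2, h1, mul_zsmul]
    have h2 : inclS ({p} : Set ℕ) s • (1 + ((r.1 : ℕ) : ℤ)) • cuspClass p =
        (1 + ((r.1 : ℕ) : ℤ)) • inclS ({p} : Set ℕ) s • cuspClass p := smul_comm _ _ _
    rw [h2, hs, smul_comm]

/-- **Reduction of the kill statement to the Hecke algebra.** -/
theorem heckeKill_of {q : ℕ} (t : HeckeAlgS ({p} : Set ℕ)) (ht : ¬ (q : ℤ) ∣ eisHom p t)
    (h : ∀ x : JZero p, (∀ σ : 𝕂 ≃ₐ[ℚ] 𝕂, σ • x = x) →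
      ∃ n : ℕ, n ≠ 0 ∧ n • (letI := heckeModuleBar p; inclS ({p} : Set ℕ) t • x) = 0) :
    HeckeKill p q := by
  let _ := heckeModuleBar p
  refine ⟨DistribSMul.toAddMonoidHom (JZero p) (inclS ({p} : Set ℕ) t), ?_, ?_, eisHom p t, ht, ?_⟩
  · exact h
  · intro ℓ A hℓ hℓp hA z hz
    exact red_hecke_smul hℓ hA (not_dvd_of_ne hℓ hℓp) _ hz
  · exact hecke_smul_cuspClass t

end Main

end Fermat.Agent.S15x
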