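import Fermat.Agent.Moduli.PlaceAt
import Fermat.Agent.Moduli.Main
import Fermat.Agent.Isog.Galois

/-!
# The point of `X₀(p)` attached to a rational elliptic curve with a point of order `p`
-/

set_option autoImplicit false
set_option linter.unusedSimpArgs false

open ModularCurve AlgebraicCurve UpperHalfPlane
open WeierstrassCurve WeierstrassCurve.Affine WeierstrassCurve.Affine.Point
open Fermat.Agent.Isog (nz kap fN xc eta IsTwo Split)
open Fermat.Agent.X0Emb (iota LExp aff)
open Fermat.Agent.JLevelOne (jFun)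
open Fermat.Agent.Moduli

noncomputable section

namespace Fermat.Agent.S15x

/-- the algebraic numbers -/
local notation "𝕂" => AlgebraicClosure ℚ

/-- the embedding of `ℚ̄` in `ℂ` as an algebra homomorphism -/
def iotaA : 𝕂 →ₐ[ℚ] ℂ := iota.toRatAlgHom

@[simp] lemma iotaA_apply (a : 𝕂) : iotaA a = iota a := rfl

lemma iota_natCast (n : ℕ) : iota (n : 𝕂) = n := map_natCast iota n

lemma iota_two : iota (2 : 𝕂) = 2 := by simpa using iota_natCast 2
lemma iota_four : iota (4 : 𝕂) = 4 := by simpa using iota_natCast 4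
lemma iota_16 : iota (16 : 𝕂) = 16 := by simpa using iota_natCast 16
lemma iota_32 : iota (32 : 𝕂) = 32 := by simpa using iota_natCast 32

variable {V : WeierstrassCurve ℚ}

lemma xc_map (P : (V⁄𝕂).Point) : xc (Point.map iotaA P) = iota (xc P) := by
  rcases P with _ | ⟨x, y, h⟩
  · exact (map_zero iota).symm
  · rfl

lemma split_mapC {e e' e'' : 𝕂} (h : Split (V⁄𝕂) e e' e'') :
    Split (V⁄ℂ) (iota e) (iota e') (iota e'') := by
  have e2 : (V⁄ℂ).b₂ = iota (V⁄𝕂).b₂ := by
    change (V.map (algebraMap ℚ ℂ)).b₂ = iota (V.map (algebraMap ℚ 𝕂)).b₂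
    rw [map_b₂, map_b₂]; exact (iotaA.commutes _).symm
  have e4 : (V⁄ℂ).b₄ = iota (V⁄𝕂).b₄ := by
    change (V.map (algebraMap ℚ ℂ)).b₄ = iota (V.map (algebraMap ℚ 𝕂)).b₄
    rw [map_b₄, map_b₄]; exact (iotaA.commutes _).symm
  have e6 : (V⁄ℂ).b₆ = iota (V⁄𝕂).b₆ := by
    change (V.map (algebraMap ℚ ℂ)).b₆ = iota (V.map (algebraMap ℚ 𝕂)).b₆
    rw [map_b₆, map_b₆]; exact (iotaA.commutes _).symm
  exact {
    b₂ := by rw [e2, h.b₂]; simp [iota_two, iota_four, iota_16, iota_32]
    b₄ := by rw [e4, h.b₄]; simp [iota_two, iota_four, iota_16, iota_32]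
    b₆ := by rw [e6, h.b₆]; simp [iota_two, iota_four, iota_16, iota_32]
    ne₁ := fun h' => h.ne₁ (iota.injective h')
    ne₂ := fun h' => h.ne₂ (iota.injective h')
    ne₃ := fun h' => h.ne₃ (iota.injective h')
    two := two_ne_zero }

lemma kap_map (Q : (V⁄𝕂).Point) [Fintype (AddSubgroup.zmultiples Q)]
    [DecidableEq (AddSubgroup.zmultiples Q)]
    [Fintype (AddSubgroup.zmultiples (Point.map iotaA Q))]
    [DecidableEq (AddSubgroup.zmultiples (Point.map iotaA Q))] (e : 𝕂) :
    kap (AddSubgroup.zmultiples (Point.map iotaA Q)) (iota e) =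
      iota (kap (AddSubgroup.zmultiples Q) e) := by
  rw [kap, kap, map_prod]
  symm
  have hmem : ∀ S : AddSubgroup.zmultiples Q,
      Point.map iotaA (S : (V⁄𝕂).Point) ∈ AddSubgroup.zmultiples (Point.map iotaA Q) := by
    rintro ⟨S, n, rfl⟩
    exact ⟨n, (map_zsmul _ _ _).symm⟩
  refine Finset.prod_bij (fun S _ => ⟨Point.map iotaA (S : (V⁄𝕂).Point), hmem S⟩) ?_ ?_ ?_ ?_
  · intro S hS
    rw [Isog.mem_nz] at hS ⊢
    intro h
    apply hS
    have h1 : Point.map iotaA (S : (V⁄𝕂).Point) = Point.map iotaA 0 := by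
      rw [_root_.map_zero]; exact congrArg Subtype.val h
    exact Subtype.ext (Point.map_injective iotaA h1)
  · intro S _ S' _ h
    exact Subtype.ext (Point.map_injective iotaA (congrArg Subtype.val h))
  · rintro ⟨S, n, rfl⟩ hS
    refine ⟨⟨n • Q, n, rfl⟩, ?_, Subtype.ext (map_zsmul _ _ _)⟩
    rw [Isog.mem_nz] at hS ⊢
    intro h
    apply hS
    have h1 : n • Q = 0 := congrArg Subtype.val h
    apply Subtype.ext
    change n • Point.map iotaA Q = 0
    rw [← map_zsmul, h1, _root_.map_zero]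
  · intro S _
    rw [map_sub, ← xc_map]

lemma card_map (Q : (V⁄𝕂).Point) [Fintype (AddSubgroup.zmultiples Q)]
    [Fintype (AddSubgroup.zmultiples (Point.map iotaA Q))] :
    Fintype.card (AddSubgroup.zmultiples (Point.map iotaA Q)) =
      Fintype.card (AddSubgroup.zmultiples Q) := by
  rw [← Nat.card_eq_fintype_card, ← Nat.card_eq_fintype_card, Nat.card_zmultiples,
    Nat.card_zmultiples]
  exact addOrderOf_injective (Point.map iotaA) (Point.map_injective iotaA) Q

lemma dd_map (Q : (V⁄𝕂).Point) [Fintype (AddSubgroup.zmultiples Q)]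
    [DecidableEq (AddSubgroup.zmultiples Q)]
    [Fintype (AddSubgroup.zmultiples (Point.map iotaA Q))]
    [DecidableEq (AddSubgroup.zmultiples (Point.map iotaA Q))] (e e' e'' : 𝕂) :
    dd (AddSubgroup.zmultiples (Point.map iotaA Q)) (iota e) (iota e') (iota e'') =
      iota (dd (AddSubgroup.zmultiples Q) e e' e'') := by
  rw [dd, dd, kap_map, kap_map, kap_map, card_map]
  simp

/-- The `u`-invariant of the pair (curve, subgroup). -/
def uu {F : Type*} [Field F] [DecidableEq F] {W : WeierstrassCurve.Affine F}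
    (N : AddSubgroup W.Point) [Fintype N] [DecidableEq N] (e e' e'' : F) : F :=
  (Fintype.card N : F) ^ 12 * W.Δ / (16 * (dd N e e' e'' * dd N e' e'' e * dd N e'' e e') ^ 2)

/-- The `j`-invariant of the quotient curve. -/
def jjN {F : Type*} [Field F] [DecidableEq F] {W : WeierstrassCurve.Affine F}
    (N : AddSubgroup W.Point) [Fintype N] [DecidableEq N] (e e' e'' : F) : F :=
  jj (dd N e e' e'') (dd N e' e'' e) (dd N e'' e e')

theorem exists_place (hΔ : V.Δ ≠ 0) {p : ℕ} [Fact p.Prime] (hp2 : p ≠ 2) (Q : (V⁄𝕂).Point)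
    (hQ : addOrderOf Q = p) [Fintype (AddSubgroup.zmultiples Q)]
    [DecidableEq (AddSubgroup.zmultiples Q)] {e e' e'' : 𝕂} (hsp : Split (V⁄𝕂) e e' e'') :
    ∃ x : Place 𝕂 (modularFunctionFieldBar p),
      0 < x.ord (X0Emb.jF p - algebraMap 𝕂 (modularFunctionFieldBar p)
        (algebraMap ℚ 𝕂 (V.c₄ ^ 3 / V.Δ))) ∧
      0 < x.ord (jpF p - algebraMap 𝕂 (modularFunctionFieldBar p)
        (jjN (AddSubgroup.zmultiples Q) e e' e'')) ∧
      0 < x.ord (uF p - algebraMap 𝕂 (modularFunctionFieldBar p)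
        (uu (AddSubgroup.zmultiples Q) e e' e'')) := by
  classical
  have hp : p.Prime := Fact.out
  have hQ' : addOrderOf (Point.map iotaA Q) = p :=
    (addOrderOf_injective (Point.map iotaA) (Point.map_injective iotaA) Q).trans hQ
  have : Finite (AddSubgroup.zmultiples (Point.map iotaA Q)) := by
    apply Nat.finite_of_card_ne_zero
    rw [Nat.card_zmultiples, hQ']
    exact hp.ne_zero
  let : Fintype (AddSubgroup.zmultiples (Point.map iotaA Q)) := Fintype.ofFinite _
  have hΔ' : (V⁄ℂ).Δ ≠ 0 := by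
    change (V.map (algebraMap ℚ ℂ)).Δ ≠ 0
    rw [map_Δ]
    exact (map_ne_zero _).mpr hΔ
  obtain ⟨τ, h1, h2, h3⟩ := exists_tau (V⁄ℂ) hΔ' hp hp2 (Point.map iotaA Q) hQ' (split_mapC hsp)
  rw [dd_map, dd_map, dd_map] at h2 h3
  have hcard : Fintype.card (AddSubgroup.zmultiples Q) = p := by
    rw [← Nat.card_eq_fintype_card, Nat.card_zmultiples, hQ]
  -- the three functions
  set f : Fin 3 → modularFunctionFieldBar p := ![X0Emb.jF p, jpF p, uF p] with hf
  set F : Fin 3 → ℍ → ℂ := ![jFun, fun τ => jFun (aff p 0 1 τ), uFun p] with hF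
  set a : Fin 3 → 𝕂 := ![algebraMap ℚ 𝕂 (V.c₄ ^ 3 / V.Δ), jjN (AddSubgroup.zmultiples Q) e e' e'',
    uu (AddSubgroup.zmultiples Q) e e' e''] with ha
  have hLE : ∀ i, LExp 1 (F i) (coeffMap iota (f i : LaurentSeries 𝕂)) := by
    intro i
    fin_cases i
    · change LExp 1 jFun (coeffMap iota ((X0Emb.jF p : modularFunctionFieldBar p) :
        LaurentSeries 𝕂))
      rw [coe_jF', coeffMap_jqModC]
      exact X0Emb.lexp_jFun
    · change LExp 1 (fun τ => jFun (aff p 0 1 τ)) (coeffMap iota (qExpand 𝕂 p (jqModC 𝕂)))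
      rw [coeffMap_qExpand, coeffMap_jqModC]
      exact TwoGauss.lexp_jd p
    · change LExp 1 (uFun p) (coeffMap iota (uSer p 𝕂))
      rw [coeffMap_uSer]
      exact lexp_uFun p
  have hval : ∀ i, iota (a i) = F i τ := by
    intro i
    fin_cases i
    · change iota (algebraMap ℚ 𝕂 (V.c₄ ^ 3 / V.Δ)) = jFun τ
      rw [h1]
      change iotaA (algebraMap ℚ 𝕂 (V.c₄ ^ 3 / V.Δ)) =
        (V.map (algebraMap ℚ ℂ)).c₄ ^ 3 / (V.map (algebraMap ℚ ℂ)).Δ
      rw [iotaA.commutes, map_c₄, map_Δ, map_div₀, map_pow]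
    · change iota (jjN (AddSubgroup.zmultiples Q) e e' e'') = jFun (aff p 0 1 τ)
      rw [h2, jjN, jj, jj]
      simp [iota_two, iota_four, iota_16, iota_32]
    · change iota (uu (AddSubgroup.zmultiples Q) e e' e'') = uFun p τ
      rw [uFun, h3, uu, hcard]
      have : (V⁄ℂ).Δ = iota (V⁄𝕂).Δ := by
        change (V.map (algebraMap ℚ ℂ)).Δ = iota (V.map (algebraMap ℚ 𝕂)).Δ
        rw [map_Δ, map_Δ]; exact (iotaA.commutes _).symm
      rw [this]
      simp [iota_two, iota_four, iota_16, iota_32]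
  have hord : ∀ (g : modularFunctionFieldBar p) (c : 𝕂),
      g = algebraMap 𝕂 (modularFunctionFieldBar p) c → (MW.cuspInf p).ord g = 0 := by
    rintro g c rfl
    exact FF.ord_algebraMap _ c
  obtain ⟨x, hx⟩ := exists_place_of_values p f F hLE τ a hval ⟨0, fun h => by
    have := hord _ _ h
    change (MW.cuspInf p).ord (X0Emb.jF p) = 0 at this
    rw [ord_inf_j] at this
    norm_num at this⟩
  refine ⟨x, ?_, ?_, ?_⟩
  · refine (hx 0).resolve_left fun h => ?_
    have := hord _ _ h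
    change (MW.cuspInf p).ord (X0Emb.jF p) = 0 at this
    rw [ord_inf_j] at this
    norm_num at this
  · refine (hx 1).resolve_left fun h => ?_
    have := hord _ _ h
    change (MW.cuspInf p).ord (jpF p) = 0 at this
    rw [ord_inf_jp] at this
    have := hp.pos
    omega
  · refine (hx 2).resolve_left fun h => ?_
    have := hord _ _ h
    change (MW.cuspInf p).ord (uF p) = 0 at this
    rw [ord_inf_u] at this
    have := hp.one_lt
    omega

end Fermat.Agent.S15x
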