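import Fermat.Agent.Moduli.Cusp
import Fermat.Prelude.Def_ModularCurve_ReductionModL

/-!
# Reduction of points of `X₀(p)` with multiplicative reduction
-/

set_option autoImplicit false

open ModularCurve AlgebraicCurve
open Fermat.Agent.Moduli

noncomputable section

namespace Fermat.Agent.S15x

/-- the algebraic numbers -/
local notation "𝕂" => AlgebraicClosure ℚ

section MapDomain

theorem mapDomain_apply_eq_sum {α β : Type*} [DecidableEq β] (r : α → β) (D : α →₀ ℤ) (w : β) :
    Finsupp.mapDomain r D w = ∑ z ∈ D.support.filter (fun z => r z = w), D z := by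
  rw [Finsupp.mapDomain, Finsupp.sum_apply, Finsupp.sum, Finset.sum_filter]
  refine Finset.sum_congr rfl fun z _ => ?_
  rw [Finsupp.single_apply]

end MapDomain

variable (p : ℕ) [hp : Fact p.Prime] {A : ValuationSubring 𝕂} {k : Type*} [Field k] (π : A →+* k)
  {r : Place 𝕂 (modularFunctionFieldBar p) → Place k (modularFunctionFieldFullC k p)}

/-- the constant series -/
def cst {R : Type*} [CommRing R] (a : R) : LaurentSeries R := HahnSeries.C a

theorem coeffMap_cst {R S : Type*} [CommRing R] [CommRing S] (f : R →+* S) (a : R) :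
    coeffMap f (cst a) = cst (f a) := by
  rw [cst, cst, HahnSeries.C_apply, HahnSeries.C_apply, coeffMap_single]

theorem cst_eq_algebraMap (a : k) : cst a = algebraMap k (LaurentSeries k) a := by
  rw [algebraMap_laurentSeries_eq_single]; rfl

variable {π p}

/-- The basic property of the reduction of places. -/
theorem red_div (hr : IsPlaceReductionAlong A π p r) {f : modularFunctionFieldBar p}
    {g : modularFunctionFieldFullC k p} (y : LaurentSeries A)
    (hf : coeffMap A.subtype y = (f : LaurentSeries 𝕂))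
    (hg : coeffMap π y = (g : LaurentSeries k)) (hg0 : g ≠ 0)
    (w : Place k (modularFunctionFieldFullC k p)) :
    Finsupp.mapDomain r (FF.divOf (K := 𝕂) f) w = w.ord g := by
  have hy : coeffMap A.subtype y ∈ laurentBaseChange 𝕂 (modularFunctionFieldFull p) := by
    rw [hf]; exact f.2
  have hyk : coeffMap π y ∈ modularFunctionFieldFullC k p := by rw [hg]; exact g.2
  have h := hr.2 y hy hyk (by rw [hg]; simpa using hg0) (FF.divOf (K := 𝕂) f) (fun P => by
    rw [FF.divOf_apply]
    congr 1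
    exact Subtype.ext hf.symm) w
  rw [h]
  congr 1
  exact Subtype.ext hg

/-- If the value of `f` at `x` is not integral then `x` and some pole of `f` have the same
reduction; more precisely the total multiplicity vanishes. -/
theorem sum_eq_zero_of_not_mem (hπ : ∀ a : A, (a : 𝕂) ∈ A.nonunits → π a = 0)
    (hr : IsPlaceReductionAlong A π p r) {f : modularFunctionFieldBar p}
    (y : LaurentSeries A) (hf : coeffMap A.subtype y = (f : LaurentSeries 𝕂)) {c : 𝕂}
    (hc : c ∉ A) (w : Place k (modularFunctionFieldFullC k p)) :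
    Finsupp.mapDomain r (FF.divOf (K := 𝕂) (f - algebraMap 𝕂 (modularFunctionFieldBar p) c)) w =
      0 := by
  have hc0 : c ≠ 0 := by rintro rfl; exact hc (zero_mem _)
  have hci : c⁻¹ ∈ A := (A.mem_or_inv_mem c).resolve_left hc
  have hcn : c⁻¹ ∈ A.nonunits := by
    rw [ValuationSubring.mem_nonunits_iff_or, inv_inv]
    exact Or.inr hc
  set t : A := ⟨c⁻¹, hci⟩ with ht
  have h0 := red_div (f := algebraMap 𝕂 (modularFunctionFieldBar p) c⁻¹ * f - 1) (g := -1) hr
    (cst t * y - 1) (by
      rw [map_sub, map_mul, map_one, coeffMap_cst, hf]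
      change cst c⁻¹ * _ - 1 = algebraMap 𝕂 (LaurentSeries 𝕂) c⁻¹ * (f : LaurentSeries 𝕂) - 1
      rw [cst_eq_algebraMap]) (by
      rw [map_sub, map_mul, map_one, coeffMap_cst, hπ t hcn, cst, map_zero, zero_mul, zero_sub]
      rfl) (by simp) w
  have h1 : FF.divOf (K := 𝕂) (f - algebraMap 𝕂 (modularFunctionFieldBar p) c) =
      FF.divOf (K := 𝕂) (algebraMap 𝕂 (modularFunctionFieldBar p) c⁻¹ * f - 1) := by
    ext z
    rw [FF.divOf_apply, FF.divOf_apply]
    have e : algebraMap 𝕂 (modularFunctionFieldBar p) c⁻¹ * f - 1 =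
        algebraMap 𝕂 (modularFunctionFieldBar p) c⁻¹ *
          (f - algebraMap 𝕂 (modularFunctionFieldBar p) c) := by
      rw [mul_sub, ← map_mul, inv_mul_cancel₀ hc0, map_one]
    rw [e]
    by_cases hfc : f - algebraMap 𝕂 (modularFunctionFieldBar p) c = 0
    · rw [hfc, mul_zero]
    · rw [z.ord_mul (by simpa using hc0) hfc, FF.ord_algebraMap, zero_add]
  rw [h1, h0]
  rw [show (-1 : modularFunctionFieldFullC k p) = algebraMap k _ (-1) by simp, FF.ord_algebraMap]

theorem exists_pole_of_not_mem (hπ : ∀ a : A, (a : 𝕂) ∈ A.nonunits → π a = 0)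
    (hr : IsPlaceReductionAlong A π p r) {f : modularFunctionFieldBar p}
    (y : LaurentSeries A) (hf : coeffMap A.subtype y = (f : LaurentSeries 𝕂)) {c : 𝕂}
    (hc : c ∉ A) {x : Place 𝕂 (modularFunctionFieldBar p)}
    (hx : 0 < x.ord (f - algebraMap 𝕂 (modularFunctionFieldBar p) c)) :
    ∃ z : Place 𝕂 (modularFunctionFieldBar p), z.ord f < 0 ∧ r z = r x := by
  classical
  have h := sum_eq_zero_of_not_mem hπ hr y hf hc (r x)
  rw [mapDomain_apply_eq_sum] at h
  by_contra hcon
  push Not at hcon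
  have hnn : ∀ z ∈ (FF.divOf (K := 𝕂) (f - algebraMap 𝕂 (modularFunctionFieldBar p) c)).support.filter
      (fun z => r z = r x),
      0 ≤ FF.divOf (K := 𝕂) (f - algebraMap 𝕂 (modularFunctionFieldBar p) c) z := by
    intro z hz
    rw [Finset.mem_filter] at hz
    have h1 : 0 ≤ z.ord f := by
      by_contra h2
      exact hcon z (not_le.mp h2) hz.2
    rw [FF.divOf_apply]
    have h2 := mem_of_ord_nonneg p z h1
    have h3 : f - algebraMap 𝕂 (modularFunctionFieldBar p) c ∈ z.toValuationSubring :=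
      sub_mem h2 (z.algebraMap_mem' c)
    by_cases h4 : f - algebraMap 𝕂 (modularFunctionFieldBar p) c = 0
    · rw [h4, Place.ord_zero]
    · exact (FF.mem_iff_ord_nonneg z h4).mp h3
  have h5 := (Finset.sum_eq_zero_iff_of_nonneg hnn).mp h x (by
    rw [Finset.mem_filter, Finsupp.mem_support_iff, FF.divOf_apply]
    exact ⟨hx.ne', rfl⟩)
  rw [FF.divOf_apply] at h5
  omega

section Cusps

variable (k p)

/-- `j` on the special fibre -/
def jF' : modularFunctionFieldFullC k p := ⟨jqModC k, jqModC_mem_full k p⟩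

/-- `j(q^p)` on the special fibre -/
def jpF' : modularFunctionFieldFullC k p := ⟨qExpand k p (jqModC k), jqModCd_mem_full k p dvd_rfl⟩

omit hp in
theorem order_jF' : ((jF' p k : modularFunctionFieldFullC k p) : LaurentSeries k).order = -1 :=
  X0Emb.order_jqModC k

/-- The `q`-adic place of the special fibre. -/
def qInf : Place k (modularFunctionFieldFullC k p) :=
  MW.infPlace (modularFunctionFieldFullC k p) ⟨jF' p k, by rw [order_jF']; norm_num⟩

omit hp in
theorem ord_qInf (g : modularFunctionFieldFullC k p) :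
    (qInf p k).ord g = (g : LaurentSeries k).order := by
  refine ord_infPlace _ (t := (jF' p k)⁻¹) ?_ g
  rw [show (((jF' p k)⁻¹ : modularFunctionFieldFullC k p) : LaurentSeries k) =
    ((jF' p k : modularFunctionFieldFullC k p) : LaurentSeries k)⁻¹ from rfl,
    MW.order_inv', order_jF', neg_neg]

variable {k}

theorem divOf_uF : FF.divOf (K := 𝕂) (uF p) = Finsupp.single (cuspZero p) ((p : ℤ) - 1) +
    Finsupp.single (MW.cuspInf p) (1 - (p : ℤ)) := by
  classical
  ext x
  rw [FF.divOf_apply, Finsupp.add_apply]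
  by_cases h1 : x = MW.cuspInf p
  · subst h1
    rw [Finsupp.single_eq_same, Finsupp.single_eq_of_ne (cuspZero_ne p).symm, zero_add, ord_inf_u]
  by_cases h2 : x = cuspZero p
  · subst h2
    rw [Finsupp.single_eq_same, Finsupp.single_eq_of_ne h1, add_zero, ord_zero_u]
  rw [Finsupp.single_eq_of_ne h2, Finsupp.single_eq_of_ne h1, ord_u_eq_zero p h1 h2, add_zero]

variable {p}

/-- `u` on the special fibre -/
def uF' (hu : uSer p k ∈ modularFunctionFieldFullC k p) : modularFunctionFieldFullC k p :=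
  ⟨uSer p k, hu⟩

theorem uF'_ne_zero (hu : uSer p k ∈ modularFunctionFieldFullC k p) : uF' hu ≠ 0 := by
  intro h
  have h1 : uSer p k = 0 := congrArg Subtype.val h
  have h2 := Igusa.order_unit p k
  rw [← uSer, h1, HahnSeries.order_zero] at h2
  have := hp.out.one_lt
  omega

theorem red_div_u (hr : IsPlaceReductionAlong A π p r)
    (hu : uSer p k ∈ modularFunctionFieldFullC k p) (w : Place k (modularFunctionFieldFullC k p)) :
    Finsupp.mapDomain r (FF.divOf (K := 𝕂) (uF p)) w = w.ord (uF' hu) :=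
  red_div (g := uF' hu) hr (uSer p A) (coeffMap_uSer p _) (coeffMap_uSer p _) (uF'_ne_zero hu) w

theorem red_cusps (hr : IsPlaceReductionAlong A π p r)
    (hu : uSer p k ∈ modularFunctionFieldFullC k p) :
    r (MW.cuspInf p) = qInf p k ∧ r (cuspZero p) ≠ qInf p k := by
  classical
  have h := red_div_u hr hu (qInf p k)
  rw [ord_qInf, divOf_uF, Finsupp.mapDomain_add, Finsupp.mapDomain_single,
    Finsupp.mapDomain_single, Finsupp.add_apply, Finsupp.single_apply, Finsupp.single_apply] at h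
  change _ = (uSer p k).order at h
  rw [uSer, Igusa.order_unit] at h
  have h1 := hp.out.one_lt
  split_ifs at h with h2 h3 h3
  · omega
  · omega
  · exact ⟨h3, h2⟩
  · omega

/-- `(α)`: if `u(x)` is not integral then `x` reduces to `∞`. -/
theorem red_eq_inf (hπ : ∀ a : A, (a : 𝕂) ∈ A.nonunits → π a = 0)
    (hr : IsPlaceReductionAlong A π p r) {c : 𝕂} (hc : c ∉ A)
    {x : Place 𝕂 (modularFunctionFieldBar p)}
    (hx : 0 < x.ord (uF p - algebraMap 𝕂 (modularFunctionFieldBar p) c)) :
    r x = r (MW.cuspInf p) := by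
  obtain ⟨z, hz, hzx⟩ := exists_pole_of_not_mem hπ hr (uSer p A) (coeffMap_uSer p _) hc hx
  by_cases h1 : z = MW.cuspInf p
  · rw [← hzx, h1]
  exfalso
  by_cases h2 : z = cuspZero p
  · subst h2
    rw [ord_zero_u] at hz
    have := hp.out.one_lt
    omega
  · rw [ord_u_eq_zero p h1 h2] at hz
    exact lt_irrefl _ hz

theorem coeffMap_j {R S : Type*} [CommRing R] [CommRing S] (f : R →+* S) :
    coeffMap f (jqModC R) = jqModC S := coeffMap_jqModC f

/-- If `j(x)` is not integral then `x` reduces to a cusp. -/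
theorem red_eq_cusp (hπ : ∀ a : A, (a : 𝕂) ∈ A.nonunits → π a = 0)
    (hr : IsPlaceReductionAlong A π p r) {a : 𝕂} (ha : a ∉ A)
    {x : Place 𝕂 (modularFunctionFieldBar p)}
    (hx : 0 < x.ord (X0Emb.jF p - algebraMap 𝕂 (modularFunctionFieldBar p) a)) :
    r x = r (MW.cuspInf p) ∨ r x = r (cuspZero p) := by
  obtain ⟨z, hz, hzx⟩ := exists_pole_of_not_mem hπ hr (jqModC A)
    ((coeffMap_jqModC _).trans (coe_jF' p).symm) ha hx
  rcases eq_cusp_of_ord_j_neg p hz with rfl | rfl
  · exact Or.inl hzx.symm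
  · exact Or.inr hzx.symm

theorem ord_pos_of_sub {K F : Type*} [Field K] [Field F] [Algebra K F] (x : Place K F) {f : F}
    {c : K} (h : 0 < x.ord (f - algebraMap K F c)) : 0 ≤ x.ord f := by
  have h0 : f - algebraMap K F c ≠ 0 := by
    intro h1; rw [h1, Place.ord_zero] at h; exact lt_irrefl _ h
  have h1 := (FF.mem_iff_ord_nonneg x h0).mpr h.le
  have h2 : f ∈ x.toValuationSubring := by
    have := add_mem h1 (x.algebraMap_mem' c)
    rwa [sub_add_cancel] at this
  by_cases hf : f = 0
  · rw [hf, Place.ord_zero]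
  · exact (FF.mem_iff_ord_nonneg x hf).mp h2

theorem ne_cusps_of_ord_j {a : 𝕂} {x : Place 𝕂 (modularFunctionFieldBar p)}
    (hx : 0 < x.ord (X0Emb.jF p - algebraMap 𝕂 (modularFunctionFieldBar p) a)) :
    x ≠ MW.cuspInf p ∧ x ≠ cuspZero p := by
  have h := ord_pos_of_sub x hx
  constructor
  · rintro rfl
    rw [ord_inf_j] at h; norm_num at h
  · rintro rfl
    rw [ord_zero_j] at h
    have := hp.out.pos
    omega

/-- positivity of the order through the valuation ideal -/
theorem ord_pos_of_mem {K F : Type*} [Field K] [Field F] [Algebra K F] (x : Place K F) {f : F}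
    (hf : f ≠ 0) (h : f ∈ x.toValuationSubring.nonunits) : 0 < x.ord f := by
  rcases (ValuationSubring.mem_nonunits_iff_or _).mp h with h1 | h1
  · exact absurd h1 hf
  · by_contra h2
    apply h1
    refine (FF.mem_iff_ord_nonneg x (inv_ne_zero hf)).mpr ?_
    rw [Place.ord_inv]
    omega

theorem mem_nonunits_of_ord_pos {K F : Type*} [Field K] [Field F] [Algebra K F] (x : Place K F)
    {f : F} (h : 0 < x.ord f) : f ∈ x.toValuationSubring.nonunits := by
  have hf : f ≠ 0 := by
    rintro rfl; rw [Place.ord_zero] at h; exact lt_irrefl _ h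
  rw [ValuationSubring.mem_nonunits_iff_or]
  right
  intro h1
  have := (FF.mem_iff_ord_nonneg x (inv_ne_zero hf)).mp h1
  rw [Place.ord_inv] at this
  omega

/-- A polynomial expression in functions with known values. -/
theorem ord_comb_pos {K F : Type*} [Field K] [Field F] [Algebra K F] (x : Place K F) {u j : F}
    {a c t : K} (n : ℕ) (hac : t * a ^ n = c) (hu : 0 < x.ord (u - algebraMap K F c))
    (hj : 0 < x.ord (j - algebraMap K F a)) (hf : u - algebraMap K F t * j ^ n ≠ 0) :
    0 < x.ord (u - algebraMap K F t * j ^ n) := by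
  apply ord_pos_of_mem x hf
  have hmem : ∀ {f : F} (c : K), 0 < x.ord (f - algebraMap K F c) → f ∈ x.toValuationSubring := by
    intro f c h
    have := add_mem (x.toValuationSubring.nonunits_subset (mem_nonunits_of_ord_pos x h))
      (x.algebraMap_mem' c)
    rwa [sub_add_cancel] at this
  set U : x.toValuationSubring := ⟨u, hmem c hu⟩ with hU
  set J : x.toValuationSubring := ⟨j, hmem a hj⟩ with hJ
  have h1 : IsLocalRing.residue x.toValuationSubring (U - algebraMap K _ c) = 0 := by
    rw [IsLocalRing.residue_eq_zero_iff, ← ValuationSubring.coe_mem_nonunits_iff]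
    exact mem_nonunits_of_ord_pos x hu
  have h2 : IsLocalRing.residue x.toValuationSubring (J - algebraMap K _ a) = 0 := by
    rw [IsLocalRing.residue_eq_zero_iff, ← ValuationSubring.coe_mem_nonunits_iff]
    exact mem_nonunits_of_ord_pos x hj
  have h3 : IsLocalRing.residue x.toValuationSubring (U - algebraMap K _ t * J ^ n) = 0 := by
    rw [map_sub, sub_eq_zero] at h1 h2 ⊢
    rw [map_mul, map_pow, h1, h2, ← map_pow, ← map_mul, ← hac, map_mul, map_pow]
  rw [IsLocalRing.residue_eq_zero_iff, ← ValuationSubring.coe_mem_nonunits_iff] at h3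
  exact h3

/-- lower bound for the order at a reduced place -/
theorem sum_ge_of_two {α : Type*} [DecidableEq α] (S : Finset α) (D : α → ℤ) {i x : α} (m : ℤ)
    (hm : m ≤ 0) (hix : i ≠ x) (hxS : x ∈ S) (hi : m ≤ D i) (hx : 0 < D x)
    (ho : ∀ z ∈ S, z ≠ i → 0 ≤ D z) : m < ∑ z ∈ S, D z := by
  have hle : ∑ z ∈ S, ((if z = i then m else 0) + (if z = x then 1 else 0)) ≤ ∑ z ∈ S, D z := by
    refine Finset.sum_le_sum fun z hz => ?_
    by_cases h1 : z = i
    · subst h1
      rw [if_pos rfl, if_neg hix, add_zero]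
      exact hi
    · rw [if_neg h1, zero_add]
      by_cases h2 : z = x
      · rw [if_pos h2, h2]; omega
      · rw [if_neg h2]; exact ho z hz h1
  rw [Finset.sum_add_distrib, Finset.sum_ite_eq' S x, if_pos hxS, Finset.sum_ite_eq' S i] at hle
  split_ifs at hle <;> omega

theorem ord_sub_ge' {K F : Type*} [Field K] [Field F] [Algebra K F] (v : Place K F) {f g : F}
    {n : ℤ} (hf : n ≤ v.ord f) (hg : n ≤ v.ord g) (h : f - g ≠ 0) : n ≤ v.ord (f - g) := by
  rw [sub_eq_add_neg] at h ⊢
  exact FF.ord_add_ge v hf (by rwa [FF.ord_neg]) h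

theorem ord_comb_ge {K F : Type*} [Field K] [Field F] [Algebra K F] (v : Place K F) {u j : F}
    {n : ℤ} {m : ℕ} (t : K) (hu : n ≤ v.ord u) (hj : n ≤ m * v.ord j) (hj0 : j ≠ 0)
    (h : u - algebraMap K F t * j ^ m ≠ 0) : n ≤ v.ord (u - algebraMap K F t * j ^ m) := by
  by_cases ht0 : t = 0
  · rw [ht0, map_zero, zero_mul, sub_zero]; exact hu
  · refine ord_sub_ge' v hu ?_ h
    rw [v.ord_mul (by simpa using ht0) (pow_ne_zero _ hj0), FF.ord_algebraMap, FF.ord_pow, zero_add]
    exact hj

theorem ord_inf_comb (t : 𝕂) (hf0 : uF p - algebraMap 𝕂 (modularFunctionFieldBar p) t *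
    X0Emb.jF p ^ (p - 1) ≠ 0) : 1 - (p : ℤ) ≤ (MW.cuspInf p).ord (uF p -
      algebraMap 𝕂 (modularFunctionFieldBar p) t * X0Emb.jF p ^ (p - 1)) := by
  have hp1 := hp.out.one_lt
  refine ord_comb_ge (MW.cuspInf p) t (ord_inf_u p).ge ?_ (jF_ne_zero p) hf0
  rw [ord_inf_j, Nat.cast_sub hp1.le, Nat.cast_one]
  omega

theorem ord_comb_nonneg (t : 𝕂) (hf0 : uF p - algebraMap 𝕂 (modularFunctionFieldBar p) t *
    X0Emb.jF p ^ (p - 1) ≠ 0) {z : Place 𝕂 (modularFunctionFieldBar p)}
    (h1 : z ≠ MW.cuspInf p) (h2 : z ≠ cuspZero p) : 0 ≤ z.ord (uF p -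
      algebraMap 𝕂 (modularFunctionFieldBar p) t * X0Emb.jF p ^ (p - 1)) :=
  (FF.mem_iff_ord_nonneg z hf0).mp (sub_mem (mem_of_ord_nonneg p z (ord_u_eq_zero p h1 h2).ge)
    (mul_mem (z.algebraMap_mem' _) (pow_mem (mem_of_ord_nonneg p z (ord_j_nonneg p h1 h2)) _)))

theorem comb_ne_zero (hπ : ∀ a : A, (a : 𝕂) ∈ A.nonunits → π a = 0)
    (hu : uSer p k ∈ modularFunctionFieldFullC k p) (t : A) (ht : (t : 𝕂) ∈ A.nonunits) :
    coeffMap A.subtype (uSer p A - cst t * jqModC A ^ (p - 1)) =
      ((uF p - algebraMap 𝕂 (modularFunctionFieldBar p) (t : 𝕂) * X0Emb.jF p ^ (p - 1) :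
        modularFunctionFieldBar p) : LaurentSeries 𝕂) ∧
    coeffMap π (uSer p A - cst t * jqModC A ^ (p - 1)) =
      ((uF' hu : modularFunctionFieldFullC k p) : LaurentSeries k) ∧
    uF p - algebraMap 𝕂 (modularFunctionFieldBar p) (t : 𝕂) * X0Emb.jF p ^ (p - 1) ≠ 0 := by
  have hfy : coeffMap A.subtype (uSer p A - cst t * jqModC A ^ (p - 1)) =
      ((uF p - algebraMap 𝕂 (modularFunctionFieldBar p) (t : 𝕂) * X0Emb.jF p ^ (p - 1) :
        modularFunctionFieldBar p) : LaurentSeries 𝕂) := by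
    rw [map_sub, map_mul, map_pow, coeffMap_cst, coeffMap_uSer, coeffMap_jqModC]
    change _ = uSer p 𝕂 - algebraMap 𝕂 (LaurentSeries 𝕂) (t : 𝕂) *
      ((X0Emb.jF p : modularFunctionFieldBar p) : LaurentSeries 𝕂) ^ (p - 1)
    rw [coe_jF', cst_eq_algebraMap]
    rfl
  have hgy : coeffMap π (uSer p A - cst t * jqModC A ^ (p - 1)) =
      ((uF' hu : modularFunctionFieldFullC k p) : LaurentSeries k) := by
    rw [map_sub, map_mul, map_pow, coeffMap_cst, coeffMap_uSer, coeffMap_jqModC,
      hπ t ht, cst, map_zero, zero_mul, sub_zero]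
    rfl
  refine ⟨hfy, hgy, fun h => ?_⟩
  rw [h, ZeroMemClass.coe_zero] at hfy
  have hy0 : uSer p A - cst t * jqModC A ^ (p - 1) = 0 := by
    apply Igusa.coeffMap_injective (f := A.subtype) Subtype.coe_injective
    rw [hfy, map_zero]
  rw [hy0, map_zero] at hgy
  exact uF'_ne_zero hu (Subtype.ext hgy.symm)

/-- `(β)`: if `u(x)/j(x)^(p-1)` is in the maximal ideal then `x` does not reduce to `∞`. -/
theorem red_ne_inf (hπ : ∀ a : A, (a : 𝕂) ∈ A.nonunits → π a = 0)
    (hr : IsPlaceReductionAlong A π p r) (hu : uSer p k ∈ modularFunctionFieldFullC k p)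
    {a c : 𝕂} (ha0 : a ≠ 0) (hac : c / a ^ (p - 1) ∈ A.nonunits)
    {x : Place 𝕂 (modularFunctionFieldBar p)}
    (hxj : 0 < x.ord (X0Emb.jF p - algebraMap 𝕂 (modularFunctionFieldBar p) a))
    (hxu : 0 < x.ord (uF p - algebraMap 𝕂 (modularFunctionFieldBar p) c)) :
    r x ≠ r (MW.cuspInf p) := by
  classical
  intro hrx
  obtain ⟨hri, hr0⟩ := red_cusps hr hu
  obtain ⟨hx1, hx2⟩ := ne_cusps_of_ord_j hxj
  obtain ⟨hfy, hgy, hf0⟩ := comb_ne_zero (p := p) hπ hu ⟨c / a ^ (p - 1), A.nonunits_subset hac⟩ hac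
  have h := red_div hr _ hfy hgy (uF'_ne_zero hu) (qInf p k)
  rw [ord_qInf] at h
  change _ = (uSer p k).order at h
  rw [uSer, Igusa.order_unit, mapDomain_apply_eq_sum] at h
  have hxf := ord_comb_pos x (p - 1) (div_mul_cancel₀ c (pow_ne_zero (p - 1) ha0)) hxu hxj hf0
  refine absurd h (ne_of_gt ?_)
  refine sum_ge_of_two _ _ (i := MW.cuspInf p) (x := x) _ ?_ hx1.symm ?_ ?_ ?_ ?_
  · have := hp.out.one_lt
    omega
  · rw [Finset.mem_filter, Finsupp.mem_support_iff, FF.divOf_apply]
    exact ⟨hxf.ne', by rw [hrx, hri]⟩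
  · rw [FF.divOf_apply]
    exact ord_inf_comb _ hf0
  · rw [FF.divOf_apply]
    exact hxf
  · intro z hz hzi
    rw [Finset.mem_filter] at hz
    rw [FF.divOf_apply]
    refine ord_comb_nonneg _ hf0 hzi ?_
    rintro rfl
    exact hr0 hz.2

end Cusps

end Fermat.Agent.S15x
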