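import Fermat.Agent.S12.ZeroComp
import Fermat.Agent.Moduli.Main
import Fermat.Agent.Isog.Hom
import Fermat.Agent.Isog.Galois

/-!
# Valuations of the function `η` on the multiples of a torsion point
-/

set_option autoImplicit false

namespace Fermat.Agent.S15x

open WeierstrassCurve WeierstrassCurve.Affine WeierstrassCurve.Affine.Point
open FermatAgent.ECVal FermatAgent.ECVal.QVal
open Fermat.Agent.Isog
open Fermat.Agent.Moduli (dd jj)

section algebra

variable {F : Type*} [Field F] {W : Affine F} {e e' e'' : F}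

/-- the discriminant in terms of the roots. -/
theorem split_Δ (hs : Split W e e' e'') :
    W.Δ = 16 * ((e - e') * (e - e'') * (e' - e'')) ^ 2 := by
  have h8 := hs.b₈
  rw [WeierstrassCurve.Δ, h8, hs.b₂, hs.b₄, hs.b₆]
  ring

theorem split_c₄ (hs : Split W e e' e'') :
    W.c₄ = 16 * ((e - e') ^ 2 + (e'' - e) * (e'' - e')) := by
  rw [WeierstrassCurve.c₄, hs.b₂, hs.b₄]
  ring

/-- Over an algebraically closed field of characteristic `≠ 2` the two-torsion is split. -/
theorem exists_split [IsAlgClosed F] (h2 : (2 : F) ≠ 0) (hΔ : W.Δ ≠ 0) :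
    ∃ e e' e'' : F, Split W e e' e'' := by
  have h4 : (4 : F) ≠ 0 := by
    have : (4 : F) = 2 * 2 := by norm_num
    rw [this]
    exact mul_ne_zero h2 h2
  obtain ⟨e, he⟩ : ∃ e : F, 4 * e ^ 3 + W.b₂ * e ^ 2 + 2 * W.b₄ * e + W.b₆ = 0 := by
    have hdeg : (Cubic.mk (4 : F) W.b₂ (2 * W.b₄) W.b₆).toPoly.degree = 3 :=
      Cubic.degree_of_a_ne_zero h4
    obtain ⟨e, he⟩ := IsAlgClosed.exists_root (Cubic.mk (4 : F) W.b₂ (2 * W.b₄) W.b₆).toPoly
      (by rw [hdeg]; norm_num)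
    refine ⟨e, ?_⟩
    simpa [Polynomial.IsRoot, Cubic.toPoly] using he
  set α := W.b₂ / 4 + e with hα
  set β := W.b₄ / 2 + e * α with hβ
  obtain ⟨e', he'⟩ : ∃ e' : F, e' ^ 2 + α * e' + β = 0 := by
    have hdeg : (Cubic.mk (0 : F) 1 α β).toPoly.degree = 2 :=
      Cubic.degree_of_b_ne_zero rfl one_ne_zero
    obtain ⟨e', he'⟩ := IsAlgClosed.exists_root (Cubic.mk (0 : F) 1 α β).toPoly
      (by rw [hdeg]; norm_num)
    refine ⟨e', ?_⟩
    simpa [Polynomial.IsRoot, Cubic.toPoly] using he'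
  set e'' := -α - e' with he''
  have hb2 : W.b₂ = -4 * (e + e' + e'') := by
    rw [he'', hα]
    field_simp
    ring
  have hee : e' * e'' = β := by
    rw [he'']
    linear_combination -he'
  have hb4 : W.b₄ = 2 * (e * e' + e * e'' + e' * e'') := by
    rw [hee, hβ, he'']
    field_simp
    ring
  have hb6 : W.b₆ = -4 * (e * e' * e'') := by
    have h5 : e * e' * e'' = e * β := by rw [← hee]; ring
    have h6 : 4 * β = 2 * W.b₄ + e * (W.b₂ + 4 * e) := by
      rw [hβ, hα]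
      field_simp
      ring
    rw [h5]
    linear_combination he + e * h6
  have hΔ' : W.Δ = 16 * ((e - e') * (e - e'') * (e' - e'')) ^ 2 := by
    have h8 := W.b_relation
    have h8' : W.b₈ = 4 * (e + e' + e'') * (e * e' * e'') -
        (e * e' + e * e'' + e' * e'') ^ 2 := by
      rw [hb2, hb4, hb6] at h8
      apply mul_left_cancel₀ h4
      linear_combination h8
    rw [WeierstrassCurve.Δ, h8', hb2, hb4, hb6]
    ring
  rw [hΔ'] at hΔ
  have h5 : (e - e') * (e - e'') * (e' - e'') ≠ 0 := by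
    intro h
    apply hΔ
    rw [h]
    ring
  exact ⟨e, e', e'', hb2, hb4, hb6, sub_ne_zero.mp (left_ne_zero_of_mul (left_ne_zero_of_mul h5)),
    sub_ne_zero.mp (right_ne_zero_of_mul (left_ne_zero_of_mul h5)),
    sub_ne_zero.mp (right_ne_zero_of_mul h5), h2⟩

variable [DecidableEq F]

/-- duplication formula. -/
theorem split_double (hs : Split W e e' e'') {S : W.Point} (hS : S ≠ 0) (hη : eta S ≠ 0) :
    eta S ^ 2 * (xc (S + S) - e) = ((xc S - e) ^ 2 - (e - e') * (e - e'')) ^ 2 := by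
  have h1 := xc_double hS hη
  have h2 := hs.eta_sq' hS
  rw [hs.b₄, hs.b₆, hs.b₈] at h1
  rw [mul_sub, h1, h2]
  ring

variable {N : AddSubgroup W.Point} [Fintype N] [DecidableEq N]

/-- (V4) the unit in terms of `η`. -/
theorem prod_dd (hs : Split W e e' e'') (hodd : Odd (Fintype.card N)) :
    16 * (dd N e e' e'' * dd N e' e'' e * dd N e'' e e') ^ 2 *
      (∏ S ∈ nz N, eta (S : W.Point)) ^ 4 = W.Δ ^ (Fintype.card N) := by
  obtain ⟨T, hT⟩ := hs.exists_two
  obtain ⟨T', hT'⟩ := hs.rot.exists_two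
  obtain ⟨T'', hT''⟩ := hs.rot.rot.exists_two
  have hk := kap_ne_zero hodd hT
  have hk' := kap_ne_zero hodd hT'
  have hk'' := kap_ne_zero hodd hT''
  have h1 : (∏ S ∈ nz N, eta (S : W.Point)) ^ 2 =
      4 ^ (nz N).card * (kap N e * kap N e' * kap N e'') := by
    rw [← Finset.prod_pow, kap, kap, kap, ← Finset.prod_mul_distrib, ← Finset.prod_mul_distrib,
      ← Finset.prod_const, ← Finset.prod_mul_distrib]
    exact Finset.prod_congr rfl fun S hS => hs.eta_sq' (coe_ne_zero_of_mem_nz N hS)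
  have h2 : (∏ S ∈ nz N, eta (S : W.Point)) ^ 4 =
      (4 ^ (nz N).card * (kap N e * kap N e' * kap N e'')) ^ 2 := by
    rw [← h1]; ring
  rw [h2, split_Δ hs, ← card_nz_add_one (N := N)]
  set m := (nz N).card
  unfold dd
  rw [← card_nz_add_one (N := N)]
  change 16 * ((e' - e) ^ (m + 1) * kap N e'' / (kap N e' * kap N e) *
    ((e'' - e') ^ (m + 1) * kap N e / (kap N e'' * kap N e')) *
    ((e - e'') ^ (m + 1) * kap N e' / (kap N e * kap N e''))) ^ 2 *
    (4 ^ m * (kap N e * kap N e' * kap N e'')) ^ 2 = _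
  have h3 : 16 * ((e' - e) ^ (m + 1) * kap N e'' / (kap N e' * kap N e) *
    ((e'' - e') ^ (m + 1) * kap N e / (kap N e'' * kap N e')) *
    ((e - e'') ^ (m + 1) * kap N e' / (kap N e * kap N e''))) ^ 2 *
    (4 ^ m * (kap N e * kap N e' * kap N e'')) ^ 2 =
    16 * (((e' - e) * (e'' - e') * (e - e'')) ^ (m + 1)) ^ 2 * (4 ^ m) ^ 2 := by
    field_simp
    generalize (e' - e) = a
    generalize (e'' - e') = b
    generalize (e - e'') = c
    rw [mul_pow (a * b) c, mul_pow a b]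
    ring
  rw [h3, mul_pow 16 _ (m + 1), ← pow_mul, ← pow_mul, ← pow_mul]
  have h4 : (4 : F) ^ (m * 2) = 16 ^ m := by
    rw [mul_comm, pow_mul]; norm_num
  have h5 : ((e' - e) * (e'' - e') * (e - e'')) ^ ((m + 1) * 2) =
      ((e - e') * (e - e'') * (e' - e'')) ^ (2 * (m + 1)) := by
    rw [mul_comm (m + 1) 2, pow_mul, pow_mul]
    congr 1
    ring
  rw [h4, h5]
  ring

/-- (V4) second form. -/
theorem unit_eq (hs : Split W e e' e'') (hodd : Odd (Fintype.card N)) (hΔ : W.Δ ≠ 0) (c : F) :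
    c * W.Δ / (16 * (dd N e e' e'' * dd N e' e'' e * dd N e'' e e') ^ 2) =
      c * (∏ S ∈ nz N, eta (S : W.Point)) ^ 4 / W.Δ ^ (Fintype.card N - 1) := by
  have h1 := prod_dd hs hodd
  have hpos : 0 < Fintype.card N := Fintype.card_pos
  obtain ⟨m, hm⟩ : ∃ m, Fintype.card N = m + 1 := ⟨Fintype.card N - 1, by omega⟩
  rw [hm] at h1 ⊢
  rw [Nat.add_sub_cancel]
  have h2 : 16 * (dd N e e' e'' * dd N e' e'' e * dd N e'' e e') ^ 2 ≠ 0 := by
    intro h
    rw [h, zero_mul] at h1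
    exact pow_ne_zero _ hΔ h1.symm
  rw [div_eq_div_iff h2 (pow_ne_zero _ hΔ)]
  rw [pow_succ] at h1
  linear_combination (-c) * h1

/-- antisymmetry of `dd`. -/
theorem dd_swap (hodd : Odd (Fintype.card N)) (e e' e'' : F) :
    dd N e' e e'' = - dd N e e' e'' := by
  unfold dd
  have : (e - e') ^ Fintype.card N = - (e' - e) ^ Fintype.card N := by
    rw [← neg_sub, hodd.neg_pow]
  rw [this, mul_comm (kap N e)]
  ring

/-- the invariant `jj` is invariant under permutations of the roots. -/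
theorem jj_swap (hodd : Odd (Fintype.card N)) (e e' e'' : F) :
    jj (dd N e' e e'') (dd N e e'' e') (dd N e'' e' e) =
      jj (dd N e e' e'') (dd N e' e'' e) (dd N e'' e e') := by
  rw [dd_swap hodd e e', show dd N e e'' e' = - dd N e'' e e' from dd_swap hodd e'' e e',
    show dd N e'' e' e = - dd N e' e'' e from dd_swap hodd e' e'' e]
  unfold jj
  congr 1
  · ring
  · ring

theorem jj_rot (e e' e'' : F) :
    jj (dd N e' e'' e) (dd N e'' e e') (dd N e e' e'') =
      jj (dd N e e' e'') (dd N e' e'' e) (dd N e'' e e') := by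
  unfold jj
  congr 1
  · ring
  · ring

/-- Any two splittings differ by a permutation. -/
theorem jj_eq_of_split (hodd : Odd (Fintype.card N)) (hs : Split W e e' e'') {f f' f'' : F}
    (ht : Split W f f' f'') :
    jj (dd N f f' f'') (dd N f' f'' f) (dd N f'' f f') =
      jj (dd N e e' e'') (dd N e' e'' e) (dd N e'' e e') := by
  have h4 := hs.four
  have h1 : e + e' + e'' = f + f' + f'' := by
    have := hs.b₂.symm.trans ht.b₂
    apply mul_left_cancel₀ h4
    linear_combination -this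
  have h2 : e * e' + e * e'' + e' * e'' = f * f' + f * f'' + f' * f'' := by
    have := hs.b₄.symm.trans ht.b₄
    exact mul_left_cancel₀ hs.two this
  have h3 : e * e' * e'' = f * f' * f'' := by
    have := hs.b₆.symm.trans ht.b₆
    apply mul_left_cancel₀ h4
    linear_combination -this
  have key : ∀ x : F, (x - e) * (x - e') * (x - e'') = (x - f) * (x - f') * (x - f'') := by
    intro x
    linear_combination (-x ^ 2) * h1 + x * h2 - h3
  have hf : f = e ∨ f = e' ∨ f = e'' := by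
    have := key f
    rw [sub_self, zero_mul, zero_mul, mul_eq_zero, mul_eq_zero, sub_eq_zero, sub_eq_zero,
      sub_eq_zero] at this
    tauto
  -- reduce to `f = e`
  have main : ∀ e e' e'' : F, Split W e e' e'' → f = e →
      (∀ x : F, (x - e) * (x - e') * (x - e'') = (x - f) * (x - f') * (x - f'')) →
      jj (dd N f f' f'') (dd N f' f'' f) (dd N f'' f f') =
      jj (dd N e e' e'') (dd N e' e'' e) (dd N e'' e e') := by
    intro e e' e'' hs hfe key
    subst hfe
    have hne := ht.ne₁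
    have h5 := key f'
    rw [sub_self, mul_zero, zero_mul, mul_eq_zero, mul_eq_zero, sub_eq_zero, sub_eq_zero,
      sub_eq_zero] at h5
    have h6 := key f''
    rw [sub_self, mul_zero, mul_eq_zero, mul_eq_zero, sub_eq_zero, sub_eq_zero,
      sub_eq_zero] at h6
    rcases h5 with (h5 | h5) | h5
    · exact absurd h5.symm ht.ne₁
    · rcases h6 with (h6 | h6) | h6
      · exact absurd h6.symm ht.ne₂
      · exact absurd (h5.trans h6.symm) ht.ne₃
      · rw [h5, h6]
    · rcases h6 with (h6 | h6) | h6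
      · exact absurd h6.symm ht.ne₂
      · rw [h5, h6]
        -- the swap of `e'` and `e''`
        have h7 := jj_swap hodd f e'' e'
        have h8 := jj_rot (N := N) f e'' e'
        have h9 := jj_rot (N := N) e'' e' f
        have h10 := jj_swap hodd f e' e''
        have h11 := jj_rot (N := N) e' f e''
        rw [← h10, ← h11]
      · exact absurd (h5.trans h6.symm) ht.ne₃
  rcases hf with hf | hf | hf
  · exact main e e' e'' hs hf key
  · rw [main e' e'' e hs.rot hf (fun x => by rw [← key]; ring), jj_rot]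
  · rw [main e'' e e' hs.rot.rot hf (fun x => by rw [← key]; ring), jj_rot, jj_rot]

end algebra

section val

local notation "ℚbar" => AlgebraicClosure ℚ

open Fermat.Agent.S12val

variable {W : WeierstrassCurve ℤ} {A : ValuationSubring ℚbar} {ℓ : ℕ}

lemma bc_b₂ : ((W.map (Int.castRingHom ℚ))⁄ℚbar).b₂ = ((W.b₂ : ℤ) : ℚbar) := by
  change ((W.map (Int.castRingHom ℚ)).map (algebraMap ℚ ℚbar)).b₂ = _
  rw [WeierstrassCurve.map_b₂, WeierstrassCurve.map_b₂]; simp

lemma bc_b₄ : ((W.map (Int.castRingHom ℚ))⁄ℚbar).b₄ = ((W.b₄ : ℤ) : ℚbar) := by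
  change ((W.map (Int.castRingHom ℚ)).map (algebraMap ℚ ℚbar)).b₄ = _
  rw [WeierstrassCurve.map_b₄, WeierstrassCurve.map_b₄]; simp

lemma bc_b₆ : ((W.map (Int.castRingHom ℚ))⁄ℚbar).b₆ = ((W.b₆ : ℤ) : ℚbar) := by
  change ((W.map (Int.castRingHom ℚ)).map (algebraMap ℚ ℚbar)).b₆ = _
  rw [WeierstrassCurve.map_b₆, WeierstrassCurve.map_b₆]; simp

lemma bc_c₄ : ((W.map (Int.castRingHom ℚ))⁄ℚbar).c₄ = ((W.c₄ : ℤ) : ℚbar) := by
  change ((W.map (Int.castRingHom ℚ)).map (algebraMap ℚ ℚbar)).c₄ = _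
  rw [WeierstrassCurve.map_c₄, WeierstrassCurve.map_c₄]; simp

lemma bc_Δ : ((W.map (Int.castRingHom ℚ))⁄ℚbar).Δ = ((W.Δ : ℤ) : ℚbar) := by
  change ((W.map (Int.castRingHom ℚ)).map (algebraMap ℚ ℚbar)).Δ = _
  rw [WeierstrassCurve.map_Δ, WeierstrassCurve.map_Δ]; simp

/-- (V1) torsion prime to the residue characteristic is integral. -/
theorem mem_of_torsion (hℓ : ℓ.Prime) (hA : A.LiesOverPrime ℓ) {n : ℕ} (hn : ¬ ℓ ∣ n)
    {S : ((W.map (Int.castRingHom ℚ))⁄ℚbar).Point} (hS : n • S = 0) : xc S ∈ A ∧ eta S ∈ A := by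
  rcases S with _ | ⟨x, y, h⟩
  · exact ⟨A.zero_mem, A.zero_mem⟩
  · have hv : A.valuation ((n : ℕ) : ℚbar) = 1 := by
      have := val_intCast_eq_one A.valuation hℓ (lt_one_of_liesOver hA) (n := (n : ℤ))
        (by exact_mod_cast hn)
      rwa [Int.cast_natCast] at this
    have hint : ∀ m : ℤ, A.valuation ((m : ℤ) : ℚbar) ≤ 1 := fun m => val_intCast_le _ m
    have h1 := le_one_of_nsmul_eq_zero' A.valuation
      (by rw [baseChange_a₁]; exact hint _) (by rw [baseChange_a₂]; exact hint _)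
      (by rw [baseChange_a₃]; exact hint _) (by rw [baseChange_a₄]; exact hint _)
      (by rw [baseChange_a₆]; exact hint _) hv hS
    rw [A.valuation_le_one_iff, A.valuation_le_one_iff] at h1
    refine ⟨h1.1, ?_⟩
    rw [eta_some, baseChange_a₁, baseChange_a₃]
    have h2 : (2 : ℚbar) ∈ A := by exact_mod_cast S12val.intCast_mem A 2
    exact add_mem (add_mem (mul_mem h2 h1.2) (mul_mem (S12val.intCast_mem A _) h1.1))
      (S12val.intCast_mem A _)

/-- (V2) at a point which is not on the identity component `η` is in the maximal ideal. -/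
theorem eta_nonunit_of_not_inZero {Q : ((W.map (Int.castRingHom ℚ))⁄ℚbar).Point}
    (h : ¬ W.InZeroComponentAt A Q) : eta Q ∈ A.nonunits := by
  obtain ⟨x, y, hxy, hx, hy, rfl, -, -, h1, -⟩ := singular_of_not_inZero h
  rw [eta_some, baseChange_a₁, baseChange_a₃]
  exact h1

/-- integrality of the two-torsion away from `2`. -/
theorem ge_of_split (hℓ : ℓ.Prime) (hℓ2 : ℓ ≠ 2) (hA : A.LiesOverPrime ℓ) {e e' e'' : ℚbar}
    (hs : Split ((W.map (Int.castRingHom ℚ))⁄ℚbar) e e' e'') : (valOf hℓ hA).Ge 0 e := by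
  set w := valOf hℓ hA with hw
  have h4 : w.Is 0 (4 : ℚbar) := by
    have h := valOf_natCast_of_not_dvd (K := ℚbar) hℓ hA (n := 4) (by
      intro h
      have h5 : ℓ ∣ 2 ^ 2 := by simpa using h
      exact hℓ2 ((Nat.prime_dvd_prime_iff_eq hℓ Nat.prime_two).mp (hℓ.dvd_of_dvd_pow h5)))
    exact_mod_cast h
  have b2 : ((W.map (Int.castRingHom ℚ))⁄ℚbar).b₂ = ((W.b₂ : ℤ) : ℚbar) := bc_b₂
  have b4 : ((W.map (Int.castRingHom ℚ))⁄ℚbar).b₄ = ((W.b₄ : ℤ) : ℚbar) := bc_b₄
  have b6 : ((W.map (Int.castRingHom ℚ))⁄ℚbar).b₆ = ((W.b₆ : ℤ) : ℚbar) := bc_b₆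
  have heq : 4 * e ^ 3 = -(((W.b₂ : ℤ) : ℚbar) * e ^ 2 + 2 * ((W.b₄ : ℤ) : ℚbar) * e +
      ((W.b₆ : ℤ) : ℚbar)) := by
    rw [← b2, ← b4, ← b6, hs.b₂, hs.b₄, hs.b₆]
    ring
  by_contra hcon
  rw [not_ge_iff] at hcon
  obtain ⟨h0, hneg⟩ := hcon
  set r := w.val e with hr
  have he : w.Is r e := ⟨h0, rfl⟩
  have h1 : w.Is (3 * r) (4 * e ^ 3) := by
    have := h4.mul (he.pow 3)
    exact this.congr (by push_cast; ring)
  have h2 : w.Gt (3 * r) (((W.b₂ : ℤ) : ℚbar) * e ^ 2) := by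
    refine ((ge_intCast (w := w) W.b₂).mul he.ge.sq).gt ?_
    linarith
  have h3 : w.Gt (3 * r) (2 * ((W.b₄ : ℤ) : ℚbar) * e) := by
    refine (((ge_two (w := w)).mul (ge_intCast W.b₄)).mul he.ge).gt ?_
    linarith
  have h5 : w.Gt (3 * r) (((W.b₆ : ℤ) : ℚbar)) := by
    refine (ge_intCast (w := w) W.b₆).gt ?_
    linarith
  rw [heq] at h1
  exact absurd (h1.lt_of_gt ((h2.add h3).add h5).neg) (lt_irrefl _)

/-- existence of a splitting adapted to the node. -/
theorem exists_split_node (hℓ : ℓ.Prime) (hℓ2 : ℓ ≠ 2) (hA : A.LiesOverPrime ℓ)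
    (hΔ0 : W.Δ ≠ 0) (hΔ : (ℓ : ℤ) ∣ W.Δ) (hc₄ : ¬ (ℓ : ℤ) ∣ W.c₄) :
    ∃ e e' e'' : ℚbar, Split ((W.map (Int.castRingHom ℚ))⁄ℚbar) e e' e'' ∧
      (valOf hℓ hA).Ge 0 e ∧ (valOf hℓ hA).Ge 0 e' ∧ (valOf hℓ hA).Ge 0 e'' ∧
      (valOf hℓ hA).Gt 0 (e - e') ∧ (valOf hℓ hA).Is 0 (e'' - e) := by
  set w := valOf hℓ hA with hw
  have hΔ' : ((W.map (Int.castRingHom ℚ))⁄ℚbar).Δ = ((W.Δ : ℤ) : ℚbar) := bc_Δ
  have hc₄' : ((W.map (Int.castRingHom ℚ))⁄ℚbar).c₄ = ((W.c₄ : ℤ) : ℚbar) := bc_c₄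
  have h2 : (2 : ℚbar) ≠ 0 := by norm_num
  have hΔne : ((W.map (Int.castRingHom ℚ))⁄ℚbar).Δ ≠ 0 := by
    rw [hΔ']; exact_mod_cast hΔ0
  have h16 : w.Is 0 (16 : ℚbar) := by
    have h := valOf_natCast_of_not_dvd (K := ℚbar) hℓ hA (n := 16) (by
      intro h
      have h5 : ℓ ∣ 2 ^ 4 := by simpa using h
      exact hℓ2 ((Nat.prime_dvd_prime_iff_eq hℓ Nat.prime_two).mp (hℓ.dvd_of_dvd_pow h5)))
    exact_mod_cast h
  have hc₄v : w.Is 0 ((W.c₄ : ℤ) : ℚbar) := by
    have h3 := val_intCast_eq_one A.valuation hℓ (lt_one_of_liesOver hA) hc₄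
    refine ⟨?_, ?_⟩
    · intro h
      rw [h, _root_.map_zero] at h3
      exact zero_ne_one h3
    · apply le_antisymm
      · by_contra hcon
        rw [not_le] at hcon
        have h4 : w.Gt 0 ((W.c₄ : ℤ) : ℚbar) := Or.inr hcon
        rw [hw, valOf_gt_zero_iff, A.mem_nonunits_iff, h3] at h4
        exact lt_irrefl _ h4
      · rcases ge_intCast (w := w) W.c₄ with h | h
        · exfalso
          rw [h, _root_.map_zero] at h3
          exact zero_ne_one h3
        · exact h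
  have hΔv : w.Gt 0 ((W.Δ : ℤ) : ℚbar) := by
    obtain ⟨c, hc⟩ := hΔ
    rw [hc]
    push_cast
    have hℓv : w.Gt 0 ((ℓ : ℕ) : ℚbar) := (valOf_prime hℓ hA).gt zero_lt_one
    exact (hℓv.mul_ge (ge_intCast c)).mono (by linarith)
  -- from any splitting with `e ≡ e'`
  have key : ∀ e e' e'' : ℚbar, Split ((W.map (Int.castRingHom ℚ))⁄ℚbar) e e' e'' →
      w.Gt 0 (e - e') → w.Is 0 (e'' - e) := by
    intro e e' e'' hs hee
    have he := ge_of_split hℓ hℓ2 hA hs
    have he' := ge_of_split hℓ hℓ2 hA hs.rot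
    have he'' := ge_of_split hℓ hℓ2 hA hs.rot.rot
    have h3 := split_c₄ hs
    rw [hc₄'] at h3
    have h4 : w.Is 0 ((e'' - e) * (e'' - e')) := by
      have h5 : w.Is 0 (16 * ((e - e') ^ 2 + (e'' - e) * (e'' - e'))) := by rw [← h3]; exact hc₄v
      have h6 := (h5.of_mul h16).congr (show (0:ℚ) - 0 = 0 by ring)
      have h7 : (e'' - e) * (e'' - e') = ((e - e') ^ 2 + (e'' - e) * (e'' - e')) -
        (e - e') ^ 2 := by ring
      rw [h7]
      refine h6.sub_gt ?_
      rw [pow_two]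
      exact (hee.mul_ge hee.ge).mono (by linarith)
    by_contra hcon
    have h8 : w.Gt 0 (e'' - e) := by
      rcases he''.sub he with h9 | h9
      · exact Or.inl h9
      · right
        refine lt_of_le_of_ne h9 fun h10 => hcon ⟨left_ne_zero_of_mul h4.1, h10.symm⟩
    have h9 := (h8.mul_ge (he''.sub he')).mono (show (0:ℚ) ≤ 0 + 0 by linarith)
    exact absurd (h4.lt_of_gt h9) (lt_irrefl _)
  obtain ⟨e, e', e'', hs⟩ := exists_split (W := (W.map (Int.castRingHom ℚ))⁄ℚbar) h2 hΔne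
  have he := ge_of_split hℓ hℓ2 hA hs
  have he' := ge_of_split hℓ hℓ2 hA hs.rot
  have he'' := ge_of_split hℓ hℓ2 hA hs.rot.rot
  have h3 := split_Δ hs
  rw [hΔ'] at h3
  have h4 : w.Gt 0 (((e - e') * (e - e'') * (e' - e'')) ^ 2) := by
    rw [h3] at hΔv
    exact (hΔv.of_mul h16).mono (by linarith)
  by_cases c1 : w.Gt 0 (e - e')
  · exact ⟨e, e', e'', hs, he, he', he'', c1, key e e' e'' hs c1⟩
  by_cases c2 : w.Gt 0 (e' - e'')
  · exact ⟨e', e'', e, hs.rot, he', he'', he, c2, key _ _ _ hs.rot c2⟩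
  by_cases c3 : w.Gt 0 (e'' - e)
  · exact ⟨e'', e, e', hs.rot.rot, he'', he, he', c3, key _ _ _ hs.rot.rot c3⟩
  exfalso
  have unit : ∀ {z : ℚbar}, w.Ge 0 z → ¬ w.Gt 0 z → w.Is 0 z := by
    intro z hz hz'
    rw [not_gt_iff] at hz'
    exact ⟨hz'.1, le_antisymm hz'.2 (hz.resolve_left hz'.1)⟩
  have u1 := unit (he.sub he') c1
  have u2 := unit (he'.sub he'') c2
  have u3 := unit (he''.sub he) c3
  have h5 : w.Is 0 (((e - e') * (e - e'') * (e' - e'')) ^ 2) := by
    have h6 := ((u1.mul u3.neg).mul u2).sq.congr (show 2 * ((0:ℚ) + 0 + 0) = 0 by ring)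
    have h7 : ((e - e') * (-(e'' - e)) * (e' - e'')) ^ 2 =
        ((e - e') * (e - e'') * (e' - e'')) ^ 2 := by ring
    rwa [h7] at h6
  exact absurd (h5.lt_of_gt h4) (lt_irrefl _)

/-- The node data attached to a splitting. -/
theorem nodeData_of_split {w : QVal ℚbar} {W' : Affine ℚbar} {e e' e'' : ℚbar}
    (hs : Split W' e e' e'') (h4 : w.Is 0 (4 : ℚbar)) (hee : w.Gt 0 (e - e'))
    (he'' : w.Is 0 (e'' - e)) :
    NodeData w W' e ((e' - e) * (e'' - e)) (w.val (e' - e)) where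
  hh := by
    have h1 : e' - e ≠ 0 := sub_ne_zero.mpr hs.ne₁.symm
    have h2 := hee.neg
    rw [neg_sub] at h2
    exact h2.resolve_left h1
  hD := by
    have h1 : w.Is (w.val (e' - e)) (e' - e) := ⟨sub_ne_zero.mpr hs.ne₁.symm, rfl⟩
    exact (h1.mul he'').congr (by ring)
  hB := by
    have h1 : W'.b₂ + 12 * e = 4 * ((e - e') - (e'' - e)) := by
      rw [hs.b₂]; ring
    rw [h1]
    exact (h4.mul (hee.sub_is he'')).congr (by ring)
  h4 := by
    rw [hs.b₂, hs.b₄]; ring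
  h6 := by
    rw [hs.b₂, hs.b₄, hs.b₆]; ring
  h8 := by
    rw [hs.b₂, hs.b₄, hs.b₆, hs.b₈]; ring

/-- (V3) at a prime of multiplicative reduction, `η` is a unit at the multiples of a torsion point
on the identity component. -/
theorem eta_unit_of_inZero (hℓ : ℓ.Prime) (hℓ2 : ℓ ≠ 2) (hA : A.LiesOverPrime ℓ)
    (hΔ0 : W.Δ ≠ 0) (hΔ : (ℓ : ℤ) ∣ W.Δ) (hc₄ : ¬ (ℓ : ℤ) ∣ W.c₄) {n : ℕ} (hn : ¬ ℓ ∣ n)
    (hodd : Odd n) {Q : ((W.map (Int.castRingHom ℚ))⁄ℚbar).Point} (hQn : n • Q = 0)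
    (hQ : W.InZeroComponentAt A Q) {S : ((W.map (Int.castRingHom ℚ))⁄ℚbar).Point}
    (hS : S ∈ AddSubgroup.zmultiples Q) (hS0 : S ≠ 0) : eta S ∈ A ∧ eta S ∉ A.nonunits := by
  set w := valOf hℓ hA with hw
  obtain ⟨e, e', e'', hs, he, he', he'', hee, hee''⟩ :=
    exists_split_node hℓ hℓ2 hA hΔ0 hΔ hc₄
  have h4 : w.Is 0 (4 : ℚbar) := by
    have h := valOf_natCast_of_not_dvd (K := ℚbar) hℓ hA (n := 4) (by
      intro h
      have h5 : ℓ ∣ 2 ^ 2 := by simpa using h
      exact hℓ2 ((Nat.prime_dvd_prime_iff_eq hℓ Nat.prime_two).mp (hℓ.dvd_of_dvd_pow h5)))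
    exact_mod_cast h
  have hnode := nodeData_of_split hs h4 hee hee''
  set h := w.val (e' - e) with hh
  have hhpos := hnode.hh
  obtain ⟨k, rfl⟩ := AddSubgroup.mem_zmultiples_iff.mp hS
  have hSn : n • (k • Q) = 0 := by
    rw [smul_comm, hQn, zsmul_zero]
  -- `Q` does not reduce to the node
  have hQx : pcomp w e h Q = 0 := by
    rcases Q with _ | ⟨x, y, hxy⟩
    · exact pcomp_zero
    · rw [pcomp_some]
      apply comp_of_not_gt
      intro hx
      rcases hQ with hQ | ⟨x', y', hxy', hQ, hQ'⟩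
      · exact some_ne_zero _ hQ
      · cases hQ
        have hxA : x ∈ A := by
          rw [← valOf_ge_zero_iff hℓ hA]
          have : x = (x - e) + e := by ring
          rw [this]
          exact hx.ge.add he
        rcases hQ' with hQ' | ⟨hx', hy', hns⟩
        · exact hQ' hxA
        · have hx2 : w.Gt 0 (x - e') := by
            have : x - e' = (x - e) + (e - e') := by ring
            rw [this]; exact hx.add hee
          have hx3 : w.Ge 0 (x - e'') := by
            rw [← valOf_ge_zero_iff hℓ hA] at hxA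
            exact hxA.sub he''
          -- `η ∈ 𝔪`
          have h5 := hs.eta_sq' (P := some x y hxy) (some_ne_zero _)
          rw [eta_some, xc_some, baseChange_a₁, baseChange_a₃] at h5
          have hηge : w.Ge 0 (2 * y + (W.a₁ : ℚbar) * x + (W.a₃ : ℚbar)) := by
            have hy1 : w.Ge 0 y := by rw [hw, valOf_ge_zero_iff]; exact hy'
            have hx1 : w.Ge 0 x := by rw [hw, valOf_ge_zero_iff]; exact hxA
            exact ((((ge_two (w := w)).mul hy1).mono (by linarith)).add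
              (((ge_intCast W.a₁).mul hx1).mono (by linarith))).add (ge_intCast W.a₃)
          have h6 : w.Gt 0 ((2 * y + (W.a₁ : ℚbar) * x + (W.a₃ : ℚbar)) ^ 2) := by
            rw [h5]
            exact (h4.ge.mul_gt (((hx.mul_ge hx2.ge).mul_ge hx3).mono
              (show (0:ℚ) ≤ 0 + 0 + 0 by linarith))).mono (by linarith)
          have h7 : w.Gt 0 (2 * y + (W.a₁ : ℚbar) * x + (W.a₃ : ℚbar)) := by
            by_contra hcon
            rw [not_gt_iff] at hcon
            have h8 : w.Is 0 (2 * y + (W.a₁ : ℚbar) * x + (W.a₃ : ℚbar)) :=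
              ⟨hcon.1, le_antisymm hcon.2 (hηge.resolve_left hcon.1)⟩
            have h9 := h8.sq.congr (show 2 * (0:ℚ) = 0 by ring)
            exact absurd (h9.lt_of_gt h6) (lt_irrefl _)
          -- the other derivative
          have hb2 := hs.b₂
          have hb4 := hs.b₄
          rw [WeierstrassCurve.b₂, baseChange_a₁, baseChange_a₂] at hb2
          rw [WeierstrassCurve.b₄, baseChange_a₁, baseChange_a₃, baseChange_a₄] at hb4
          have h8 : 4 * ((W.a₁ : ℚbar) * y - (3 * x ^ 2 + 2 * (W.a₂ : ℚbar) * x +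
              (W.a₄ : ℚbar))) = 2 * (W.a₁ : ℚbar) * (2 * y + (W.a₁ : ℚbar) * x +
              (W.a₃ : ℚbar)) - 4 * ((x - e) + (x - e')) * (x - e'') -
              4 * ((x - e) * (x - e')) := by
            linear_combination (-2 * x) * hb2 - 2 * hb4
          have h9 : w.Gt 0 (4 * ((W.a₁ : ℚbar) * y - (3 * x ^ 2 + 2 * (W.a₂ : ℚbar) * x +
              (W.a₄ : ℚbar)))) := by
            rw [h8]
            have i2 : w.Ge 0 (2 * (W.a₁ : ℚbar)) := (ge_two.mul (ge_intCast _)).mono (by linarith)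
            have i3 : w.Gt 0 (4 * ((x - e) + (x - e'))) :=
              (ge_four.mul_gt (hx.add hx2)).mono (by linarith)
            exact (((i2.mul_gt h7).mono (by linarith)).sub
              ((i3.mul_ge hx3).mono (by linarith))).sub
              ((ge_four.mul_gt ((hx.mul_ge hx2.ge).mono (show (0:ℚ) ≤ 0 + 0 by linarith))).mono
                (by linarith))
          have h10 := (h9.of_mul h4).mono (show (0:ℚ) ≤ 0 - 0 by linarith)
          rw [hw, valOf_gt_zero_iff] at h10 h7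
          have b1 : (W.map (Int.castRingHom (IsLocalRing.ResidueField A))).toAffine.a₁ =
              (W.a₁ : IsLocalRing.ResidueField A) := by simp
          have b2 : (W.map (Int.castRingHom (IsLocalRing.ResidueField A))).toAffine.a₂ =
              (W.a₂ : IsLocalRing.ResidueField A) := by simp
          have b3 : (W.map (Int.castRingHom (IsLocalRing.ResidueField A))).toAffine.a₃ =
              (W.a₃ : IsLocalRing.ResidueField A) := by simp
          have b4 : (W.map (Int.castRingHom (IsLocalRing.ResidueField A))).toAffine.a₄ =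
              (W.a₄ : IsLocalRing.ResidueField A) := by simp
          rw [nonsingular_iff', b1, b2, b3, b4] at hns
          set x' : A := ⟨x, hx'⟩ with hx'def
          set y' : A := ⟨y, hy'⟩ with hy'def
          rcases hns.2 with hns2 | hns2
          · apply hns2
            have h11 : IsLocalRing.residue A
                ((W.a₁ : A) * y' - (3 * x' ^ 2 + 2 * (W.a₂ : A) * x' + (W.a₄ : A))) = 0 := by
              rw [IsLocalRing.residue_eq_zero_iff, ← ValuationSubring.coe_mem_nonunits_iff]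
              convert h10 using 1
              push_cast
              rfl
            simpa only [map_add, map_sub, map_mul, map_pow, map_intCast, map_ofNat] using h11
          · apply hns2
            have h11 : IsLocalRing.residue A (2 * y' + (W.a₁ : A) * x' + (W.a₃ : A)) = 0 := by
              rw [IsLocalRing.residue_eq_zero_iff, ← ValuationSubring.coe_mem_nonunits_iff]
              convert h7 using 1
              push_cast
              rfl
            simpa only [map_add, map_mul, map_pow, map_intCast, map_ofNat] using h11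
  -- neither do the multiples
  have hpk : pcomp w e h (k • Q) = 0 := by
    have hnat : ∀ m : ℕ, pcomp w e h (m • Q) = 0 := by
      intro m
      obtain ⟨j, hj⟩ := pcomp_nsmul hnode Q m
      rw [hQx, mul_zero, _root_.neg_zero, zero_add, or_self] at hj
      have h0 := pcomp_nonneg hnode (m • Q)
      have h1 := pcomp_le hnode (m • Q)
      rw [hj] at h0 h1
      have hj0 : (0 : ℤ) ≤ j := by
        by_contra hcon
        rw [not_le] at hcon
        have : (j : ℚ) ≤ -1 := by exact_mod_cast (by omega : j ≤ -1)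
        nlinarith
      have hj1 : j ≤ 0 := by
        by_contra hcon
        rw [not_le] at hcon
        have : (1 : ℚ) ≤ j := by exact_mod_cast (by omega : 1 ≤ j)
        nlinarith
      have : j = 0 := le_antisymm hj1 hj0
      rw [hj, this]
      simp
    obtain ⟨m, rfl | rfl⟩ := k.eq_nat_or_neg
    · rw [natCast_zsmul]; exact hnat m
    · rw [neg_zsmul, natCast_zsmul, pcomp_neg]; exact hnat m
  have hSx : ¬ w.Gt 0 (xc (k • Q) - e) := by
    intro hcon
    obtain ⟨x, y, hxy, hP⟩ := exists_some hS0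
    rw [hP, pcomp_some] at hpk
    rw [hP, xc_some] at hcon
    unfold QVal.comp at hpk
    split_ifs at hpk with h0
    · exact hhpos.ne' hpk
    · have h1 := hcon.resolve_left h0
      have h2 : 0 < min (w.val (x - e)) h := lt_min h1 hhpos
      have h3 := le_max_right (0:ℚ) (min (w.val (x - e)) h)
      rw [hpk] at h3
      exact absurd h2 (not_lt.mpr h3)
  obtain ⟨hxA, hηA⟩ := mem_of_torsion hℓ hA hn hSn
  refine ⟨hηA, fun hη => ?_⟩
  have hη0 : eta (k • Q) ≠ 0 := by
    intro h0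
    have h1 := (add_self_eq_zero_iff hS0).mpr h0
    exact hS0 (eq_zero_of_two_torsion hodd hSn h1)
  have h5 := split_double hs hS0 hη0
  have h2S : n • (k • Q + k • Q) = 0 := by rw [nsmul_add, hSn, add_zero]
  obtain ⟨hx2A, -⟩ := mem_of_torsion hℓ hA hn h2S
  have h6 : w.Gt 0 (((xc (k • Q) - e) ^ 2 - (e - e') * (e - e'')) ^ 2) := by
    rw [← h5]
    rw [← valOf_gt_zero_iff hℓ hA] at hη
    rw [← valOf_ge_zero_iff hℓ hA] at hx2A
    have h7 : w.Gt 0 (eta (k • Q) ^ 2) := by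
      rw [pow_two]
      exact (hη.mul_ge hη.ge).mono (by linarith)
    exact (h7.mul_ge (hx2A.sub he)).mono (by linarith)
  rw [← valOf_ge_zero_iff hℓ hA] at hxA
  have hu : w.Is 0 (xc (k • Q) - e) := by
    rw [not_gt_iff] at hSx
    exact ⟨hSx.1, le_antisymm hSx.2 ((hxA.sub he).resolve_left hSx.1)⟩
  have h7 : w.Is 0 (((xc (k • Q) - e) ^ 2 - (e - e') * (e - e'')) ^ 2) := by
    have h8 : w.Gt 0 ((e - e') * (e - e'')) := (hee.mul_ge (he.sub he'')).mono (by linarith)
    exact (((hu.sq.congr (show 2 * (0:ℚ) = 0 by ring)).sub_gt h8).sq).congr (by ring)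
  exact absurd (h7.lt_of_gt h6) (lt_irrefl _)

end val

section galois

local notation "ℚbar" => AlgebraicClosure ℚ

variable {W : WeierstrassCurve ℤ} {Q : ((W.map (Int.castRingHom ℚ))⁄ℚbar).Point}

theorem smul_eq_of_mem {σ : ℚbar ≃ₐ[ℚ] ℚbar} (hσ : σ • Q = Q)
    {S : ((W.map (Int.castRingHom ℚ))⁄ℚbar).Point} (hS : S ∈ AddSubgroup.zmultiples Q) :
    σ • S = S := by
  obtain ⟨k, rfl⟩ := AddSubgroup.mem_zmultiples_iff.mp hS
  have h : ∀ n : ℕ, σ • (n • Q) = n • Q := by
    intro n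
    induction n with
    | zero => rw [zero_nsmul, smul_zero]
    | succ n ih =>
      rw [succ_nsmul]
      exact (smul_add σ (n • Q) Q).trans (by rw [ih, hσ])
  obtain ⟨m, rfl | rfl⟩ := k.eq_nat_or_neg
  · rw [natCast_zsmul]; exact h m
  · rw [neg_zsmul, natCast_zsmul, smul_neg, h]

variable [Fintype (AddSubgroup.zmultiples Q)] [DecidableEq (AddSubgroup.zmultiples Q)]

theorem map_prod_eta {σ : ℚbar ≃ₐ[ℚ] ℚbar} (hσ : σ • Q = Q) :
    σ (∏ S ∈ nz (AddSubgroup.zmultiples Q),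
      eta (S : ((W.map (Int.castRingHom ℚ))⁄ℚbar).Point)) =
    ∏ S ∈ nz (AddSubgroup.zmultiples Q),
      eta (S : ((W.map (Int.castRingHom ℚ))⁄ℚbar).Point) := by
  rw [map_prod]
  refine Finset.prod_congr rfl fun S _ => ?_
  rw [← eta_smul, smul_eq_of_mem hσ S.2]

theorem map_kap {σ : ℚbar ≃ₐ[ℚ] ℚbar} (hσ : σ • Q = Q) (e : ℚbar) :
    σ (kap (AddSubgroup.zmultiples Q) e) = kap (AddSubgroup.zmultiples Q) (σ e) := by
  rw [kap, kap, map_prod]
  refine Finset.prod_congr rfl fun S _ => ?_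
  rw [map_sub, ← xc_smul, smul_eq_of_mem hσ S.2]

theorem map_dd {σ : ℚbar ≃ₐ[ℚ] ℚbar} (hσ : σ • Q = Q) (e e' e'' : ℚbar) :
    σ (dd (AddSubgroup.zmultiples Q) e e' e'') =
      dd (AddSubgroup.zmultiples Q) (σ e) (σ e') (σ e'') := by
  unfold dd
  rw [map_div₀, map_mul, map_mul, map_pow, map_sub, map_kap hσ, map_kap hσ, map_kap hσ]

theorem split_map (σ : ℚbar ≃ₐ[ℚ] ℚbar) {e e' e'' : ℚbar}
    (hs : Split ((W.map (Int.castRingHom ℚ))⁄ℚbar) e e' e'') :
    Split ((W.map (Int.castRingHom ℚ))⁄ℚbar) (σ e) (σ e') (σ e'') := by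
  have b2 : ((W.map (Int.castRingHom ℚ))⁄ℚbar).b₂ = ((W.b₂ : ℤ) : ℚbar) := bc_b₂
  have b4 : ((W.map (Int.castRingHom ℚ))⁄ℚbar).b₄ = ((W.b₄ : ℤ) : ℚbar) := bc_b₄
  have b6 : ((W.map (Int.castRingHom ℚ))⁄ℚbar).b₆ = ((W.b₆ : ℤ) : ℚbar) := bc_b₆
  have h4 : σ (4 : ℚbar) = 4 := map_ofNat σ 4
  have h2 : σ (2 : ℚbar) = 2 := map_ofNat σ 2
  refine ⟨?_, ?_, ?_, σ.injective.ne hs.ne₁, σ.injective.ne hs.ne₂, σ.injective.ne hs.ne₃,
    hs.two⟩
  · have h := congrArg σ hs.b₂
    rw [b2] at h ⊢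
    simpa [h4, h2] using h
  · have h := congrArg σ hs.b₄
    rw [b4] at h ⊢
    simpa [h4, h2] using h
  · have h := congrArg σ hs.b₆
    rw [b6] at h ⊢
    simpa [h4, h2] using h

/-- the `j`-invariant of the quotient curve is rational. -/
theorem map_jj (hodd : Odd (Fintype.card (AddSubgroup.zmultiples Q)))
    {σ : ℚbar ≃ₐ[ℚ] ℚbar} (hσ : σ • Q = Q) {e e' e'' : ℚbar}
    (hs : Split ((W.map (Int.castRingHom ℚ))⁄ℚbar) e e' e'') :
    σ (jj (dd (AddSubgroup.zmultiples Q) e e' e'') (dd (AddSubgroup.zmultiples Q) e' e'' e)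
      (dd (AddSubgroup.zmultiples Q) e'' e e')) =
    jj (dd (AddSubgroup.zmultiples Q) e e' e'') (dd (AddSubgroup.zmultiples Q) e' e'' e)
      (dd (AddSubgroup.zmultiples Q) e'' e e') := by
  have h32 : σ (32 : ℚbar) = 32 := map_ofNat σ 32
  refine Eq.trans ?_ (jj_eq_of_split hodd hs (split_map σ hs))
  rw [← map_dd hσ, ← map_dd hσ, ← map_dd hσ]
  unfold jj
  simp only [map_div₀, map_mul, map_add, map_pow, h32]

/-- the unit is rational. -/
theorem map_unit (hodd : Odd (Fintype.card (AddSubgroup.zmultiples Q))) (hΔ : W.Δ ≠ 0)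
    {σ : ℚbar ≃ₐ[ℚ] ℚbar} (hσ : σ • Q = Q) {e e' e'' : ℚbar}
    (hs : Split ((W.map (Int.castRingHom ℚ))⁄ℚbar) e e' e'') (p : ℕ) :
    σ ((p : ℚbar) ^ 12 * ((W.map (Int.castRingHom ℚ))⁄ℚbar).Δ /
      (16 * (dd (AddSubgroup.zmultiples Q) e e' e'' * dd (AddSubgroup.zmultiples Q) e' e'' e *
        dd (AddSubgroup.zmultiples Q) e'' e e') ^ 2)) =
    (p : ℚbar) ^ 12 * ((W.map (Int.castRingHom ℚ))⁄ℚbar).Δ /
      (16 * (dd (AddSubgroup.zmultiples Q) e e' e'' * dd (AddSubgroup.zmultiples Q) e' e'' e *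
        dd (AddSubgroup.zmultiples Q) e'' e e') ^ 2) := by
  have hΔ' : ((W.map (Int.castRingHom ℚ))⁄ℚbar).Δ = ((W.Δ : ℤ) : ℚbar) := bc_Δ
  have hΔne : ((W.map (Int.castRingHom ℚ))⁄ℚbar).Δ ≠ 0 := by
    rw [hΔ']; exact_mod_cast hΔ
  rw [unit_eq hs hodd hΔne, map_div₀, map_mul, map_pow, map_pow, map_pow, map_prod_eta hσ, hΔ']
  simp

end galois

end Fermat.Agent.S15x
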