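import Fermat.Agent.S15.Val
import Fermat.Agent.S15.Point

/-!
# The values of `j` and `u` at the point attached to `(E, Q)`
-/

set_option autoImplicit false

open ModularCurve AlgebraicCurve
open WeierstrassCurve WeierstrassCurve.Affine WeierstrassCurve.Affine.Point
open FermatAgent.ECVal FermatAgent.ECVal.QVal
open Fermat.Agent.Isog (nz kap fN xc eta IsTwo Split)
open Fermat.Agent.Moduli

noncomputable section

namespace Fermat.Agent.S15x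

/-- the algebraic numbers -/
local notation "𝕂" => AlgebraicClosure ℚ

variable {W : WeierstrassCurve ℤ} {A : ValuationSubring 𝕂} {ℓ : ℕ}

/-- the `j`-invariant as an algebraic number -/
def jW (W : WeierstrassCurve ℤ) : 𝕂 :=
  algebraMap ℚ 𝕂 ((W.map (Int.castRingHom ℚ)).c₄ ^ 3 / (W.map (Int.castRingHom ℚ)).Δ)

theorem jW_eq (W : WeierstrassCurve ℤ) : jW W = (W.c₄ : 𝕂) ^ 3 / (W.Δ : 𝕂) := by
  rw [jW, WeierstrassCurve.map_c₄, WeierstrassCurve.map_Δ]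
  simp

theorem galois_jW (σ : 𝕂 ≃ₐ[ℚ] 𝕂) : σ (jW W) = jW W := σ.commutes _

theorem val_lt_one_of_dvd (hA : A.LiesOverPrime ℓ) {n : ℤ} (h : (ℓ : ℤ) ∣ n) :
    A.valuation (n : 𝕂) < 1 := by
  obtain ⟨m, rfl⟩ := h
  rw [Int.cast_mul, map_mul, Int.cast_natCast]
  exact mul_lt_of_lt_of_le_one (lt_one_of_liesOver hA) (val_intCast_le _ m)

theorem val_eq_one_of_not_dvd (hℓ : ℓ.Prime) (hA : A.LiesOverPrime ℓ) {n : ℤ}
    (h : ¬ (ℓ : ℤ) ∣ n) : A.valuation (n : 𝕂) = 1 :=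
  val_intCast_eq_one A.valuation hℓ (lt_one_of_liesOver hA) h

theorem jW_not_mem (hℓ : ℓ.Prime) (hA : A.LiesOverPrime ℓ) (hΔ0 : W.Δ ≠ 0)
    (hΔ : (ℓ : ℤ) ∣ W.Δ) (hc₄ : ¬ (ℓ : ℤ) ∣ W.c₄) : jW W ∉ A := by
  rw [jW_eq, ← A.valuation_le_one_iff, map_div₀, map_pow, val_eq_one_of_not_dvd hℓ hA hc₄, one_pow,
    not_le, one_div]
  have h0 : (W.Δ : 𝕂) ≠ 0 := by exact_mod_cast hΔ0
  exact (one_lt_inv₀ (zero_lt_iff.mpr ((Valuation.ne_zero_iff _).mpr h0))).mpr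
    (val_lt_one_of_dvd hA hΔ)

theorem jW_ne_zero (hℓ : ℓ.Prime) (hA : A.LiesOverPrime ℓ) (hΔ0 : W.Δ ≠ 0)
    (hΔ : (ℓ : ℤ) ∣ W.Δ) (hc₄ : ¬ (ℓ : ℤ) ∣ W.c₄) : jW W ≠ 0 := by
  intro h
  exact jW_not_mem hℓ hA hΔ0 hΔ hc₄ (by rw [h]; exact zero_mem _)

section Point

variable {p : ℕ} {Q : ((W.map (Int.castRingHom ℚ))⁄𝕂).Point}
  [Fintype (AddSubgroup.zmultiples Q)] [DecidableEq (AddSubgroup.zmultiples Q)] {e e' e'' : 𝕂}

omit [DecidableEq (AddSubgroup.zmultiples Q)] in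
theorem card_eq (hQ : addOrderOf Q = p) : Fintype.card (AddSubgroup.zmultiples Q) = p := by
  rw [← Nat.card_eq_fintype_card, Nat.card_zmultiples, hQ]

theorem uu_eq (hp : p.Prime) (hp2 : p ≠ 2) (hQ : addOrderOf Q = p) (hΔ0 : W.Δ ≠ 0)
    (hs : Split ((W.map (Int.castRingHom ℚ))⁄𝕂) e e' e'') :
    uu (AddSubgroup.zmultiples Q) e e' e'' = (p : 𝕂) ^ 12 *
      (∏ S ∈ nz (AddSubgroup.zmultiples Q),
        eta (S : ((W.map (Int.castRingHom ℚ))⁄𝕂).Point)) ^ 4 / (W.Δ : 𝕂) ^ (p - 1) := by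
  have hodd : Odd (Fintype.card (AddSubgroup.zmultiples Q)) := by
    rw [card_eq hQ]; exact hp.odd_of_ne_two hp2
  have hΔne : ((W.map (Int.castRingHom ℚ))⁄𝕂).Δ ≠ 0 := by
    rw [bc_Δ]; exact_mod_cast hΔ0
  rw [uu, unit_eq hs hodd hΔne, bc_Δ, card_eq hQ]

omit [Fintype (AddSubgroup.zmultiples Q)] [DecidableEq (AddSubgroup.zmultiples Q)] in
theorem torsion_of_mem (hQ : addOrderOf Q = p) {S : ((W.map (Int.castRingHom ℚ))⁄𝕂).Point}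
    (hS : S ∈ AddSubgroup.zmultiples Q) : p • S = 0 := by
  obtain ⟨k, rfl⟩ := AddSubgroup.mem_zmultiples_iff.mp hS
  have h0 : p • Q = 0 := by rw [← hQ]; exact addOrderOf_nsmul_eq_zero Q
  have h1 : p • k • Q = k • p • Q := smul_comm p k Q
  rw [h1, h0, zsmul_zero]

/-- `(β)` on the value side -/
theorem uu_div_nonunit (hp : p.Prime) (hp2 : p ≠ 2) (hQ : addOrderOf Q = p) (hΔ0 : W.Δ ≠ 0)
    (hs : Split ((W.map (Int.castRingHom ℚ))⁄𝕂) e e' e'') (hℓ : ℓ.Prime) (hℓp : ℓ ≠ p)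
    (hA : A.LiesOverPrime ℓ) (hc₄ : ¬ (ℓ : ℤ) ∣ W.c₄)
    (h : ¬ W.InZeroComponentAt A Q) :
    uu (AddSubgroup.zmultiples Q) e e' e'' / (jW W) ^ (p - 1) ∈ A.nonunits := by
  have hΔne : (W.Δ : 𝕂) ≠ 0 := by exact_mod_cast hΔ0
  have hc0 : (W.c₄ : 𝕂) ≠ 0 := by
    intro h0
    apply hc₄
    have : W.c₄ = 0 := by exact_mod_cast h0
    rw [this]; exact dvd_zero _
  have e1 : uu (AddSubgroup.zmultiples Q) e e' e'' / (jW W) ^ (p - 1) = (p : 𝕂) ^ 12 *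
      (∏ S ∈ nz (AddSubgroup.zmultiples Q),
        eta (S : ((W.map (Int.castRingHom ℚ))⁄𝕂).Point)) ^ 4 / ((W.c₄ : 𝕂) ^ 3) ^ (p - 1) := by
    rw [uu_eq hp hp2 hQ hΔ0 hs, jW_eq, div_pow]
    field_simp
  rw [e1, ValuationSubring.mem_nonunits_iff, map_div₀, map_pow, map_pow,
    val_eq_one_of_not_dvd hℓ hA hc₄, one_pow, one_pow, div_one, map_mul, map_pow, map_pow]
  have hv1 : A.valuation (p : 𝕂) ≤ 1 := by
    have := val_intCast_le A.valuation (p : ℤ)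
    rwa [Int.cast_natCast] at this
  have hv2 : A.valuation (∏ S ∈ nz (AddSubgroup.zmultiples Q),
      eta (S : ((W.map (Int.castRingHom ℚ))⁄𝕂).Point)) < 1 := by
    have hQm : (⟨Q, AddSubgroup.mem_zmultiples Q⟩ : AddSubgroup.zmultiples Q) ∈
        nz (AddSubgroup.zmultiples Q) := by
      rw [Isog.mem_nz]
      intro h0
      have h1 : Q = 0 := congrArg Subtype.val h0
      rw [h1, addOrderOf_zero] at hQ
      exact hp.one_lt.ne hQ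
    rw [← Finset.mul_prod_erase _ _ hQm, map_mul]
    have h1 : A.valuation (eta Q) < 1 := (eta_nonunit_of_not_inZero h)
    refine mul_lt_of_lt_of_le_one h1 ?_
    rw [map_prod]
    refine Finset.prod_le_one' fun S _ => ?_
    rw [A.valuation_le_one_iff]
    exact (mem_of_torsion hℓ hA (n := p) (fun hd => hℓp
      ((Nat.prime_dvd_prime_iff_eq hℓ hp).mp hd)) (torsion_of_mem hQ S.2)).2
  exact mul_lt_of_le_one_of_lt (pow_le_one' hv1 _) (pow_lt_one₀ zero_le hv2 (by norm_num))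

/-- `(α)` on the value side -/
theorem uu_not_mem (hp : p.Prime) (hp2 : p ≠ 2) (hQ : addOrderOf Q = p) (hΔ0 : W.Δ ≠ 0)
    (hs : Split ((W.map (Int.castRingHom ℚ))⁄𝕂) e e' e'') (hℓ : ℓ.Prime) (hℓ2 : ℓ ≠ 2)
    (hℓp : ℓ ≠ p) (hA : A.LiesOverPrime ℓ) (hΔ : (ℓ : ℤ) ∣ W.Δ) (hc₄ : ¬ (ℓ : ℤ) ∣ W.c₄)
    (h : W.InZeroComponentAt A Q) :
    uu (AddSubgroup.zmultiples Q) e e' e'' ∉ A := by
  have hΔne : (W.Δ : 𝕂) ≠ 0 := by exact_mod_cast hΔ0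
  have hnp : ¬ ℓ ∣ p := fun hd => hℓp ((Nat.prime_dvd_prime_iff_eq hℓ hp).mp hd)
  rw [uu_eq hp hp2 hQ hΔ0 hs, ← A.valuation_le_one_iff, map_div₀, map_mul, map_pow, map_pow,
    map_pow]
  have hv1 : A.valuation (p : 𝕂) = 1 := by
    have := val_eq_one_of_not_dvd hℓ hA (n := (p : ℤ)) (by exact_mod_cast hnp)
    rwa [Int.cast_natCast] at this
  have hv2 : A.valuation (∏ S ∈ nz (AddSubgroup.zmultiples Q),
      eta (S : ((W.map (Int.castRingHom ℚ))⁄𝕂).Point)) = 1 := by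
    rw [map_prod]
    refine Finset.prod_eq_one fun S hS => ?_
    obtain ⟨h1, h2⟩ := eta_unit_of_inZero hℓ hℓ2 hA hΔ0 hΔ hc₄ hnp (hp.odd_of_ne_two hp2)
      (by rw [← hQ]; exact addOrderOf_nsmul_eq_zero Q) h S.2 (Isog.coe_ne_zero_of_mem_nz _ hS)
    rw [ValuationSubring.mem_nonunits_iff, not_lt] at h2
    exact le_antisymm ((A.valuation_le_one_iff _).mpr h1) h2
  rw [hv1, hv2, one_pow, one_pow, one_mul, not_le, one_div]
  have h3 : A.valuation (W.Δ : 𝕂) ^ (p - 1) < 1 :=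
    pow_lt_one₀ zero_le (val_lt_one_of_dvd hA hΔ) (by have := hp.one_lt; omega)
  exact (one_lt_inv₀ (zero_lt_iff.mpr (pow_ne_zero _ ((Valuation.ne_zero_iff _).mpr hΔne)))).mpr h3

theorem galois_jjN (hp : p.Prime) (hp2 : p ≠ 2) (hQ : addOrderOf Q = p) {σ : 𝕂 ≃ₐ[ℚ] 𝕂}
    (hσ : σ • Q = Q) (hs : Split ((W.map (Int.castRingHom ℚ))⁄𝕂) e e' e'') :
    σ (jjN (AddSubgroup.zmultiples Q) e e' e'') = jjN (AddSubgroup.zmultiples Q) e e' e'' :=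
  map_jj (by rw [card_eq hQ]; exact hp.odd_of_ne_two hp2) hσ hs

theorem galois_uu (hp : p.Prime) (hp2 : p ≠ 2) (hQ : addOrderOf Q = p) (hΔ0 : W.Δ ≠ 0)
    {σ : 𝕂 ≃ₐ[ℚ] 𝕂}
    (hσ : σ • Q = Q) (hs : Split ((W.map (Int.castRingHom ℚ))⁄𝕂) e e' e'') :
    σ (uu (AddSubgroup.zmultiples Q) e e' e'') = uu (AddSubgroup.zmultiples Q) e e' e'' :=
  map_unit (by rw [card_eq hQ]; exact hp.odd_of_ne_two hp2) hΔ0 hσ hs _

end Point

end Fermat.Agent.S15x
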